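import Mathlib
import Fermat.Agent.Lib.Deuring.Basic
import Fermat.Agent.Lib.Deuring.RedSpace

set_option autoImplicit false

/-!
# Cluster T, WP N3 (gluing): the JOINT LATTICE

`S₁`, `S₂` two constant reductions of `F / K` over the same valuation ring `A` of `K`, both with
the lattice property, `W` a finite-dimensional `K`-subspace of `F`, `c₀ ∈ Kˣ`.  Then
`Lam = {φ ∈ W : φ ∈ Ov₁, c₀⁻¹ φ ∈ Ov₂}` contains `dim_K W` elements whose JOINT reductions
`(red₁ φ, red₂ (c₀⁻¹ φ))` are `k`-linearly independent.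

Proof: `W ∩ Ov₁` and `W ∩ c₀ Ov₂` are free `A`-modules of finite rank (lattice property), their sum
is finitely generated and torsion-free, hence free (valuation rings are Bezout), hence finitely
presented, so the intersection is finitely generated, hence free; a basis of the intersection is
orthonormal for the joint reduction by the scaling property.
-/

noncomputable section

open Fermat.Agent.RR Fermat.Agent.Deuring

namespace Fermat.Agent.BadRed.Gluing

section Abstract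

variable {K F : Type*} [Field K] [Field F] [Algebra K F] (A : ValuationSubring K)

theorem coe_smul_eq (a : A) (x : F) : a • x = (a : K) • x := rfl

/-- an `A`-submodule of a `K`-vector space is flat. -/
theorem flat_of_submodule (L : Submodule A F) : Module.Flat A L := by
  rw [Module.Flat.flat_iff_torsion_eq_bot_of_isBezout,
    ← Submodule.isTorsionFree_iff_torsion_eq_bot]
  infer_instance

/-- a finitely generated `A`-submodule of a `K`-vector space is free. -/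
theorem free_of_fg (L : Submodule A F) (hL : L.FG) : Module.Free A L := by
  have : Module.Finite A L := Module.Finite.iff_fg.mpr hL
  have := flat_of_submodule A L
  exact Module.free_of_flat_of_isLocalRing

/-- coherence: the intersection of two finitely generated `A`-submodules is finitely
generated. -/
theorem fg_inf (L₁ L₂ : Submodule A F) (h₁ : L₁.FG) (h₂ : L₂.FG) : (L₁ ⊓ L₂).FG := by
  have : Module.Finite A L₁ := Module.Finite.iff_fg.mpr h₁
  have : Module.Finite A L₂ := Module.Finite.iff_fg.mpr h₂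
  have hM : (L₁ ⊔ L₂).FG := h₁.sup h₂
  have : Module.Finite A ↥(L₁ ⊔ L₂) := Module.Finite.iff_fg.mpr hM
  have : Module.Free A ↥(L₁ ⊔ L₂) := free_of_fg A _ hM
  have : Module.FinitePresentation A ↥(L₁ ⊔ L₂) := Module.finitePresentation_of_projective A _
  let f : (L₁ × L₂) →ₗ[A] ↥(L₁ ⊔ L₂) :=
    LinearMap.coprod (Submodule.inclusion le_sup_left) (Submodule.inclusion le_sup_right)
  have hf : Function.Surjective f := by
    rintro ⟨x, hx⟩
    obtain ⟨a, ha, b, hb, rfl⟩ := Submodule.mem_sup.mp hx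
    exact ⟨(⟨a, ha⟩, ⟨b, hb⟩), Subtype.ext rfl⟩
  have hker : (LinearMap.ker f).FG := Module.FinitePresentation.fg_ker f hf
  have himg : L₁ ⊓ L₂ = (LinearMap.ker f).map (L₁.subtype ∘ₗ LinearMap.fst A L₁ L₂) := by
    ext x
    constructor
    · intro hx
      obtain ⟨hx1, hx2⟩ := Submodule.mem_inf.mp hx
      refine ⟨(⟨x, hx1⟩, ⟨-x, neg_mem hx2⟩), ?_, rfl⟩
      rw [SetLike.mem_coe, LinearMap.mem_ker]
      apply Subtype.ext
      change x + -x = 0
      exact add_neg_cancel x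
    · rintro ⟨⟨⟨a, ha⟩, ⟨b, hb⟩⟩, hab, rfl⟩
      rw [SetLike.mem_coe, LinearMap.mem_ker] at hab
      have h0 : a + b = 0 := congrArg Subtype.val hab
      have hab' : a = -b := eq_neg_of_add_eq_zero_left h0
      refine Submodule.mem_inf.mpr ⟨ha, ?_⟩
      change a ∈ L₂
      rw [hab']
      exact neg_mem hb
  rw [himg]
  exact hker.map _

/-- a finitely generated `A`-submodule of a `K`-vector space has an `A`-basis which is
`K`-linearly independent. -/
theorem exists_basis_of_fg (L : Submodule A F) (hL : L.FG) :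
    ∃ (r : ℕ) (w : Fin r → F), LinearIndependent K w ∧ Submodule.span A (Set.range w) = L := by
  have : Module.Finite A L := Module.Finite.iff_fg.mpr hL
  have := free_of_fg A L hL
  let b := Module.finBasis A L
  refine ⟨_, fun i => (b i : F), ?_, ?_⟩
  · have h1 : LinearIndependent A (fun i => (b i : F)) :=
      b.linearIndependent.map' L.subtype (Submodule.ker_subtype L)
    exact h1.localization K (nonZeroDivisors A)
  · have h2 := b.span_eq
    have h3 : Submodule.map L.subtype (Submodule.span A (Set.range b)) = L := by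
      rw [h2, Submodule.map_top, Submodule.range_subtype]
    rw [Submodule.map_span, ← Set.range_comp] at h3
    exact h3

end Abstract

section Lattice

variable {K F k Fk : Type*} [Field K] [Field F] [Algebra K F]
  [Field k] [Field Fk] [Algebra k Fk] (A : ValuationSubring K)

/-- the scaled lattice `{φ ∈ W : c⁻¹ φ ∈ Ov}`, an `A`-submodule of `F`. -/
def scaledLat (S : ValSetup K F k Fk) (hA : S.A = A) (W : Submodule K F) (c : K) :
    Submodule A F where
  carrier := {φ | φ ∈ W ∧ c⁻¹ • φ ∈ S.Ov}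
  zero_mem' := ⟨zero_mem _, by rw [smul_zero]; exact zero_mem _⟩
  add_mem' := by
    rintro x y ⟨hx1, hx2⟩ ⟨hy1, hy2⟩
    exact ⟨add_mem hx1 hy1, by rw [smul_add]; exact add_mem hx2 hy2⟩
  smul_mem' := by
    rintro ⟨a, ha⟩ x ⟨hx1, hx2⟩
    refine ⟨W.smul_mem a hx1, ?_⟩
    change c⁻¹ • (a • x) ∈ S.Ov
    rw [smul_comm]
    exact S.smul_mem (hA ▸ ha) hx2

theorem mem_scaledLat_iff (S : ValSetup K F k Fk) (hA : S.A = A) (W : Submodule K F) (c : K)
    (φ : F) : φ ∈ scaledLat A S hA W c ↔ φ ∈ W ∧ c⁻¹ • φ ∈ S.Ov := Iff.rfl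

/-- the scaled lattice is finitely generated (lattice property). -/
theorem fg_scaledLat (S : ValSetup K F k Fk) (hA : S.A = A) (hL : HasLattice S)
    (W : Submodule K F) [hW : FiniteDimensional K W] {c : K} (hc : c ≠ 0) :
    (scaledLat A S hA W c).FG := by
  classical
  obtain ⟨n, u, huW, huO, hspan, hli⟩ := hL W hW
  rw [Submodule.fg_iff_exists_fin_generating_family]
  refine ⟨n, fun i => c • u i, ?_⟩
  apply le_antisymm
  · rw [Submodule.span_le]
    rintro _ ⟨i, rfl⟩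
    refine ⟨W.smul_mem c (huW i), ?_⟩
    rw [smul_smul, inv_mul_cancel₀ hc, one_smul]
    exact huO i
  · rintro φ ⟨hφW, hφO⟩
    have h1 : c⁻¹ • φ ∈ Submodule.span K (Set.range u) := by
      rw [hspan]
      exact W.smul_mem _ hφW
    obtain ⟨a, ha⟩ := (Submodule.mem_span_range_iff_exists_fun K).mp h1
    have haA : ∀ i, a i ∈ S.A := coeff_mem_of_sum_mem S u huO hli a (by rw [ha]; exact hφO)
    rw [Submodule.mem_span_range_iff_exists_fun]
    refine ⟨fun i => ⟨a i, hA ▸ haA i⟩, ?_⟩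
    have h2 : φ = c • (c⁻¹ • φ) := by
      rw [smul_smul, mul_inv_cancel₀ hc, one_smul]
    rw [h2, ← ha, Finset.smul_sum]
    refine Finset.sum_congr rfl fun i _ => ?_
    change a i • c • u i = c • a i • u i
    rw [smul_comm]

end Lattice

section Joint

variable {K F k Fk₁ Fk₂ : Type*} [Field K] [Field F] [Algebra K F]
  [Field k] [Field Fk₁] [Algebra k Fk₁] [Field Fk₂] [Algebra k Fk₂]
  (S₁ : ValSetup K F k Fk₁) (S₂ : ValSetup K F k Fk₂) (hA : S₁.A = S₂.A)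

/-- the joint lattice `{φ ∈ W : φ ∈ Ov₁, c₀⁻¹ φ ∈ Ov₂}`. -/
def jointLat (W : Submodule K F) (c₀ : K) : Submodule S₁.A F :=
  scaledLat S₁.A S₁ rfl W 1 ⊓ scaledLat S₁.A S₂ hA.symm W c₀

theorem mem_jointLat_iff (W : Submodule K F) (c₀ : K) (φ : F) :
    φ ∈ jointLat S₁ S₂ hA W c₀ ↔ φ ∈ W ∧ φ ∈ S₁.Ov ∧ c₀⁻¹ • φ ∈ S₂.Ov := by
  unfold jointLat
  rw [Submodule.mem_inf, mem_scaledLat_iff, mem_scaledLat_iff, inv_one, one_smul]
  tauto

include hA in
/-- common scaling: every `φ ≠ 0` has a multiple in the joint lattice with nonzero joint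
reduction. -/
theorem exists_common_scale {φ : F} (hφ : φ ≠ 0) {c₀ : K} (hc₀ : c₀ ≠ 0) :
    ∃ π : K, π ≠ 0 ∧ π⁻¹ • φ ∈ S₁.Ov ∧ c₀⁻¹ • π⁻¹ • φ ∈ S₂.Ov ∧
      (S₁.red (π⁻¹ • φ) ≠ 0 ∨ S₂.red (c₀⁻¹ • π⁻¹ • φ) ≠ 0) := by
  obtain ⟨c₁, hc₁, hu₁⟩ := S₁.exists_scale hφ
  have hφ' : c₀⁻¹ • φ ≠ 0 := smul_ne_zero (inv_ne_zero hc₀) hφ
  obtain ⟨c₂, hc₂, hu₂⟩ := S₂.exists_scale hφ'
  by_cases hcase : c₁ * c₂⁻¹ ∈ S₁.A
  · refine ⟨c₂, hc₂, ?_, ?_, Or.inr ?_⟩
    · have e : c₂⁻¹ • φ = (c₁ * c₂⁻¹) • (c₁⁻¹ • φ) := by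
        rw [smul_smul, mul_assoc, mul_comm c₂⁻¹, ← mul_assoc, mul_inv_cancel₀ hc₁, one_mul]
      rw [e]
      exact S₁.smul_mem hcase (S₁.mem_of_red_ne_zero hu₁)
    · rw [smul_comm]
      exact S₂.mem_of_red_ne_zero hu₂
    · rw [smul_comm]
      exact hu₂
  · have hcase' : (c₁ * c₂⁻¹)⁻¹ ∈ S₁.A := (S₁.A.mem_or_inv_mem _).resolve_left hcase
    have hcase2 : c₂ * c₁⁻¹ ∈ S₂.A := by
      rw [← hA]
      have e : c₂ * c₁⁻¹ = (c₁ * c₂⁻¹)⁻¹ := by
        rw [mul_inv, inv_inv, mul_comm]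
      rw [e]
      exact hcase'
    refine ⟨c₁, hc₁, S₁.mem_of_red_ne_zero hu₁, ?_, Or.inl hu₁⟩
    have e : c₀⁻¹ • c₁⁻¹ • φ = (c₂ * c₁⁻¹) • (c₂⁻¹ • c₀⁻¹ • φ) := by
      rw [smul_comm c₀⁻¹ c₁⁻¹ φ, smul_smul (c₂ * c₁⁻¹), mul_assoc, mul_comm c₁⁻¹, ← mul_assoc,
        mul_inv_cancel₀ hc₂, one_mul]
    rw [e]
    exact S₂.smul_mem hcase2 (S₂.mem_of_red_ne_zero hu₂)

/-- a constant with nonzero residue is a unit of `A`. -/
theorem inv_mem_of_res_ne_zero {c : K} (hc : c ∈ S₁.A) (h : S₁.res ⟨c, hc⟩ ≠ 0) :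
    c⁻¹ ∈ S₁.A := by
  have h1 : S₁.red (algebraMap K F c) ≠ 0 := by
    rw [S₁.red_algebraMap hc]
    intro h0
    apply h
    exact (map_eq_zero_iff _ (algebraMap k Fk₁).injective).mp h0
  have h2 := S₁.inv_mem_of_red_ne_zero h1
  rw [← map_inv₀] at h2
  exact (S₁.mem_Ov_iff _).mp h2

/-- if `c ∉ A` or the residue of `c` is nonzero then `c⁻¹ ∈ A`. -/
theorem inv_mem_of_not (c : K) (h : ¬ ∃ hc : c ∈ S₁.A, S₁.res ⟨c, hc⟩ = 0) : c⁻¹ ∈ S₁.A := by
  by_cases hc : c ∈ S₁.A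
  · apply inv_mem_of_res_ne_zero S₁ hc
    intro h0
    exact h ⟨hc, h0⟩
  · exact (S₁.A.mem_or_inv_mem c).resolve_left hc

include hA in
/-- **JOINT LATTICE**: there are `dim_K W` elements of the joint lattice whose joint reductions
are `k`-linearly independent. -/
theorem exists_joint_basis
    (hres : ∀ (c : K) (h₁ : c ∈ S₁.A) (h₂ : c ∈ S₂.A), S₁.res ⟨c, h₁⟩ = S₂.res ⟨c, h₂⟩)
    (lat₁ : HasLattice S₁) (lat₂ : HasLattice S₂) (W : Submodule K F)
    [FiniteDimensional K W] {c₀ : K} (hc₀ : c₀ ≠ 0) :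
    ∃ (r : ℕ) (w : Fin r → F), r = Module.finrank K W ∧ (∀ i, w i ∈ W) ∧
      (∀ i, w i ∈ S₁.Ov) ∧ (∀ i, c₀⁻¹ • w i ∈ S₂.Ov) ∧
      LinearIndependent k (fun i => ((S₁.red (w i), S₂.red (c₀⁻¹ • w i)) : Fk₁ × Fk₂)) := by
  classical
  have hfg : (jointLat S₁ S₂ hA W c₀).FG :=
    fg_inf S₁.A _ _ (fg_scaledLat S₁.A S₁ rfl lat₁ W one_ne_zero)
      (fg_scaledLat S₁.A S₂ hA.symm lat₂ W hc₀)
  obtain ⟨r, w, hwli, hwspan⟩ := exists_basis_of_fg S₁.A _ hfg
  have hwmem : ∀ i, w i ∈ jointLat S₁ S₂ hA W c₀ := by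
    intro i
    rw [← hwspan]
    exact Submodule.subset_span ⟨i, rfl⟩
  have hwW : ∀ i, w i ∈ W := fun i => ((mem_jointLat_iff S₁ S₂ hA W c₀ _).mp (hwmem i)).1
  have hwO₁ : ∀ i, w i ∈ S₁.Ov := fun i => ((mem_jointLat_iff S₁ S₂ hA W c₀ _).mp (hwmem i)).2.1
  have hwO₂ : ∀ i, c₀⁻¹ • w i ∈ S₂.Ov :=
    fun i => ((mem_jointLat_iff S₁ S₂ hA W c₀ _).mp (hwmem i)).2.2
  -- every element of the joint lattice is an integral combination of `w`
  have hcomb : ∀ ψ ∈ jointLat S₁ S₂ hA W c₀, ∃ b : Fin r → K, (∀ i, b i ∈ S₁.A) ∧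
      ∑ i, b i • w i = ψ := by
    intro ψ hψ
    rw [← hwspan, Submodule.mem_span_range_iff_exists_fun] at hψ
    obtain ⟨b, hb⟩ := hψ
    exact ⟨fun i => (b i : K), fun i => (b i).2, hb⟩
  -- `w` spans `W` over `K`
  have hspanK : Submodule.span K (Set.range w) = W := by
    apply le_antisymm
    · rw [Submodule.span_le]
      rintro _ ⟨i, rfl⟩
      exact hwW i
    · intro φ hφW
      rcases eq_or_ne φ 0 with rfl | hφ0
      · exact zero_mem _
      obtain ⟨π, hπ, h1, h2, -⟩ := exists_common_scale S₁ S₂ hA hφ0 hc₀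
      have hψ : π⁻¹ • φ ∈ jointLat S₁ S₂ hA W c₀ :=
        (mem_jointLat_iff S₁ S₂ hA W c₀ _).mpr ⟨W.smul_mem _ hφW, h1, h2⟩
      obtain ⟨b, -, hb⟩ := hcomb _ hψ
      have e : φ = π • (π⁻¹ • φ) := by rw [smul_smul, mul_inv_cancel₀ hπ, one_smul]
      rw [e, ← hb]
      refine Submodule.smul_mem _ _ (Submodule.sum_mem _ fun i _ => ?_)
      exact Submodule.smul_mem _ _ (Submodule.subset_span ⟨i, rfl⟩)
  have hr : r = Module.finrank K W := by
    rw [← hspanK, finrank_span_eq_card hwli, Fintype.card_fin]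
  refine ⟨r, w, hr, hwW, hwO₁, hwO₂, ?_⟩
  rw [Fintype.linearIndependent_iff]
  intro l hl
  -- lift the coefficients
  choose a ha using fun i => S₁.res_surj (l i)
  have haA : ∀ i, (a i : K) ∈ S₁.A := fun i => (a i).2
  have haA₂ : ∀ i, (a i : K) ∈ S₂.A := fun i => hA ▸ (a i).2
  have hl1 : ∑ i, l i • S₁.red (w i) = 0 := by
    have := congrArg Prod.fst hl
    simpa [Prod.fst_sum] using this
  have hl2 : ∑ i, l i • S₂.red (c₀⁻¹ • w i) = 0 := by
    have := congrArg Prod.snd hl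
    simpa [Prod.snd_sum] using this
  set φ : F := ∑ i, (a i : K) • w i with hφdef
  obtain ⟨hφO₁, hφred₁⟩ := red_sum S₁ w hwO₁ (fun i => (a i : K)) haA
  obtain ⟨hφO₂, hφred₂⟩ := red_sum S₂ (fun i => c₀⁻¹ • w i) hwO₂ (fun i => (a i : K)) haA₂
  have e2 : ∑ i, (a i : K) • c₀⁻¹ • w i = c₀⁻¹ • φ := by
    rw [hφdef, Finset.smul_sum]
    exact Finset.sum_congr rfl fun i _ => smul_comm _ _ _
  rw [e2] at hφO₂ hφred₂
  have hred1 : S₁.red φ = 0 := by
    rw [hφred₁, ← hl1]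
    refine Finset.sum_congr rfl fun i _ => ?_
    rw [← ha i]
  have hred2 : S₂.red (c₀⁻¹ • φ) = 0 := by
    rw [hφred₂, ← hl2]
    refine Finset.sum_congr rfl fun i _ => ?_
    rw [← ha i, hres _ (haA i) (haA₂ i)]
  rcases eq_or_ne φ 0 with hφ0 | hφ0
  · have h0 := (Fintype.linearIndependent_iff.mp hwli) (fun i => (a i : K)) hφ0
    intro i
    rw [← ha i]
    have : a i = 0 := Subtype.ext (h0 i)
    rw [this, map_zero]
  · obtain ⟨π, hπ, h1, h2, hne⟩ := exists_common_scale S₁ S₂ hA hφ0 hc₀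
    have hφW : φ ∈ W := Submodule.sum_mem _ fun i _ => W.smul_mem _ (hwW i)
    have hψ : π⁻¹ • φ ∈ jointLat S₁ S₂ hA W c₀ :=
      (mem_jointLat_iff S₁ S₂ hA W c₀ _).mpr ⟨W.smul_mem _ hφW, h1, h2⟩
    -- `π` is in the maximal ideal
    have hπm : ∃ hc : π ∈ S₁.A, S₁.res ⟨π, hc⟩ = 0 := by
      by_contra hcon
      have hinv : π⁻¹ ∈ S₁.A := inv_mem_of_not S₁ π hcon
      have hinv₂ : π⁻¹ ∈ S₂.A := hA ▸ hinv
      rcases hne with hne | hne
      · apply hne
        rw [S₁.red_smul hinv hφO₁, hred1, smul_zero]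
      · apply hne
        rw [smul_comm, S₂.red_smul hinv₂ hφO₂, hred2, smul_zero]
    obtain ⟨hπA, hπres⟩ := hπm
    obtain ⟨b, hbA, hb⟩ := hcomb _ hψ
    have e : ∑ i, ((a i : K) - π * b i) • w i = 0 := by
      simp only [sub_smul, Finset.sum_sub_distrib]
      rw [sub_eq_zero]
      change φ = _
      have e' : φ = π • (π⁻¹ • φ) := by rw [smul_smul, mul_inv_cancel₀ hπ, one_smul]
      rw [e', ← hb, Finset.smul_sum]
      exact Finset.sum_congr rfl fun i _ => (smul_smul _ _ _)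
    have h0 := (Fintype.linearIndependent_iff.mp hwli) _ e
    intro i
    have hai : (a i : K) = π * b i := sub_eq_zero.mp (h0 i)
    have hai' : a i = (⟨π, hπA⟩ : S₁.A) * ⟨b i, hbA i⟩ := Subtype.ext hai
    rw [← ha i, hai', map_mul, hπres, zero_mul]

end Joint

end Fermat.Agent.BadRed.Gluing
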