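import Mathlib
import Fermat.Agent.S18.KeyBasic
import Fermat.Agent.Lib.BadRed.Nodal.Setup
import Fermat.Agent.Lib.BadRed.Nodal.RRNodal

set_option autoImplicit false

/-!
# Cluster T, WP N3 (gluing): values at places, reduction of divisors

* multiplicativity of `ValAt` (values at a place), `n`-th roots;
* `redDiv₁`, `redDiv₂`: the reduction `r_*` of divisors, restricted to the two components, and the
  degree formula `deg D = (r_* D)(none) + deg (redDiv₁ D) + deg (redDiv₂ D)`.
-/

noncomputable section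

open AlgebraicCurve Fermat.Agent.RR Fermat.Agent.Deuring

namespace Fermat.Agent.BadRed.Gluing

section Values

variable {K F : Type*} [Field K] [Field F] [Algebra K F]

theorem valAt_ord_nonneg {Q : Place K F} {f : F} {c : K} (h : ValAt Q f c) : 0 ≤ Q.ord f := by
  rcases h with h | h
  · rw [h]
    exact (Fermat.Agent.S24Res.ord_algebraMap Q c).ge
  · have e : f = (f - algebraMap K F c) + algebraMap K F c := by ring
    rw [e]
    exact Fermat.Agent.S18Key.ord_nonneg_add Q h.le (Fermat.Agent.S24Res.ord_algebraMap Q c).ge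

theorem vanAt_mul_of_nonneg {Q : Place K F} {f g : F} (hf : VanAt Q f) (hg : 0 ≤ Q.ord g) :
    VanAt Q (f * g) := by
  rcases hf with rfl | hf
  · rw [zero_mul]; exact vanAt_zero Q
  rcases eq_or_ne g 0 with rfl | hg0
  · rw [mul_zero]; exact vanAt_zero Q
  have hf0 : f ≠ 0 := by
    rintro rfl
    rw [Place.ord_zero] at hf
    exact lt_irrefl _ hf
  right
  rw [Q.ord_mul hf0 hg0]
  omega

theorem valAt_algebraMap (Q : Place K F) (c : K) : ValAt Q (algebraMap K F c) c := Or.inl rfl

theorem valAt_one (Q : Place K F) : ValAt Q (1 : F) (1 : K) := Or.inl (map_one _).symm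

theorem valAt_mul {Q : Place K F} {f g : F} {c d : K} (hf : ValAt Q f c) (hg : ValAt Q g d) :
    ValAt Q (f * g) (c * d) := by
  have hg0 := valAt_ord_nonneg hg
  rw [valAt_iff_vanAt] at hf hg ⊢
  have e : f * g - algebraMap K F (c * d) =
      (f - algebraMap K F c) * g + (g - algebraMap K F d) * algebraMap K F c := by
    rw [map_mul]; ring
  rw [e]
  exact (vanAt_mul_of_nonneg hf hg0).add
    (vanAt_mul_of_nonneg hg (Fermat.Agent.S24Res.ord_algebraMap Q c).ge)

theorem valAt_pow {Q : Place K F} {f : F} {c : K} (hf : ValAt Q f c) (n : ℕ) :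
    ValAt Q (f ^ n) (c ^ n) := by
  induction n with
  | zero => rw [pow_zero, pow_zero]; exact valAt_one Q
  | succ m ih => rw [pow_succ, pow_succ]; exact valAt_mul ih hf

theorem ord_pow_nat (Q : Place K F) (f : F) (n : ℕ) : Q.ord (f ^ n) = n * Q.ord f := by
  have := Q.ord_zpow f (n : ℤ)
  rwa [zpow_natCast] at this

theorem ord_nonneg_of_pow {Q : Place K F} {f : F} {n : ℕ} (hn : n ≠ 0)
    (h : 0 ≤ Q.ord (f ^ n)) : 0 ≤ Q.ord f := by
  rw [ord_pow_nat] at h
  have hn' : (0 : ℤ) < n := by exact_mod_cast Nat.pos_of_ne_zero hn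
  by_contra hneg
  push Not at hneg
  have : (n : ℤ) * Q.ord f < 0 := mul_neg_of_pos_of_neg hn' hneg
  omega

/-- existence of the value (residue field `= K`). -/
theorem exists_valAt (h : IsRRField K F) (Q : Place K F) {f : F} (hf : 0 ≤ Q.ord f) :
    ∃ c : K, ValAt Q f c := exists_const_sub h Q hf

/-- a regular function with nonzero value has order `0`. -/
theorem ord_eq_zero_of_valAt {Q : Place K F} {f : F} {c : K} (h : ValAt Q f c) (hc : c ≠ 0) :
    Q.ord f = 0 := by
  rcases h with h | h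
  · rw [h]
    exact Fermat.Agent.S24Res.ord_algebraMap Q c
  · have h0 := valAt_ord_nonneg (Or.inr h : ValAt Q f c)
    by_contra hne
    have hpos : 0 < Q.ord f := lt_of_le_of_ne h0 (Ne.symm hne)
    have hv : VanAt Q f := Or.inr hpos
    have hv' : ValAt Q f 0 := (valAt_zero_right_iff Q f).mpr hv
    have hv'' : ValAt Q f c := Or.inr h
    exact hc (hv''.unique hv')

/-- **twisted equality of values from equality of `n`-th powers.** -/
theorem exists_root_of_unity (h₁ : IsRRField K F) {F' : Type*} [Field F'] [Algebra K F']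
    (h₂ : IsRRField K F') (Q : Place K F) (Q' : Place K F') {a : F} {b : F'} {n : ℕ} (hn : n ≠ 0)
    (ha : 0 ≤ Q.ord (a ^ n)) (hb : 0 ≤ Q'.ord (b ^ n))
    (hab : ∃ c : K, ValAt Q (a ^ n) c ∧ ValAt Q' (b ^ n) c) :
    ∃ z : K, z ^ n = 1 ∧ ∃ c : K, ValAt Q a (z * c) ∧ ValAt Q' b c := by
  obtain ⟨α, hα⟩ := exists_valAt h₁ Q (ord_nonneg_of_pow hn ha)
  obtain ⟨β, hβ⟩ := exists_valAt h₂ Q' (ord_nonneg_of_pow hn hb)
  obtain ⟨c, hc1, hc2⟩ := hab
  have e1 : α ^ n = c := (valAt_pow hα n).unique hc1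
  have e2 : β ^ n = c := (valAt_pow hβ n).unique hc2
  rcases eq_or_ne β 0 with hβ0 | hβ0
  · refine ⟨1, one_pow n, β, ?_, hβ⟩
    have hα0 : α = 0 := by
      have : α ^ n = 0 := by rw [e1, ← e2, hβ0, zero_pow hn]
      exact pow_eq_zero_iff hn |>.mp this
    rw [one_mul, hβ0, ← hα0]
    exact hα
  · refine ⟨α / β, ?_, β, ?_, hβ⟩
    · rw [div_pow, e1, e2, div_self]
      rw [← e2]
      exact pow_ne_zero n hβ0
    · rw [div_mul_cancel₀ _ hβ0]
      exact hα

end Values

section RedDiv

variable {K F k Fk₁ Fk₂ ι : Type*} [Field K] [Field F] [Algebra K F]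
  [Field k] [Field Fk₁] [Algebra k Fk₁] [Field Fk₂] [Algebra k Fk₂]
  (N : NodalSetup K F k Fk₁ Fk₂ ι)

/-- the reduction of a divisor, first component. -/
def redDiv₁ (D : Divisor K F) : Divisor k Fk₁ :=
  Finsupp.comapDomain (fun Q => some (Sum.inl Q)) (Finsupp.mapDomain N.r D)
    (fun _ _ _ _ h => Sum.inl_injective (Option.some_injective _ h))

/-- the reduction of a divisor, second component. -/
def redDiv₂ (D : Divisor K F) : Divisor k Fk₂ :=
  Finsupp.comapDomain (fun Q => some (Sum.inr Q)) (Finsupp.mapDomain N.r D)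
    (fun _ _ _ _ h => Sum.inr_injective (Option.some_injective _ h))

theorem redDiv₁_apply (D : Divisor K F) (Q : Place k Fk₁) :
    redDiv₁ N D Q = Finsupp.mapDomain N.r D (some (Sum.inl Q)) := rfl

theorem redDiv₂_apply (D : Divisor K F) (Q : Place k Fk₂) :
    redDiv₂ N D Q = Finsupp.mapDomain N.r D (some (Sum.inr Q)) := rfl

theorem redDiv₁_add (D E : Divisor K F) : redDiv₁ N (D + E) = redDiv₁ N D + redDiv₁ N E := by
  ext Q
  rw [Finsupp.add_apply, redDiv₁_apply, redDiv₁_apply, redDiv₁_apply, Finsupp.mapDomain_add,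
    Finsupp.add_apply]

theorem redDiv₂_add (D E : Divisor K F) : redDiv₂ N (D + E) = redDiv₂ N D + redDiv₂ N E := by
  ext Q
  rw [Finsupp.add_apply, redDiv₂_apply, redDiv₂_apply, redDiv₂_apply, Finsupp.mapDomain_add,
    Finsupp.add_apply]

theorem redDiv₁_zero : redDiv₁ N (0 : Divisor K F) = 0 := by
  ext Q
  rw [redDiv₁_apply, Finsupp.mapDomain_zero]
  rfl

theorem redDiv₂_zero : redDiv₂ N (0 : Divisor K F) = 0 := by
  ext Q
  rw [redDiv₂_apply, Finsupp.mapDomain_zero]
  rfl

theorem mapDomain_neg' (D : Divisor K F) :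
    Finsupp.mapDomain N.r (-D) = -Finsupp.mapDomain N.r D := by
  have h := Finsupp.mapDomain_add (f := N.r) (v₁ := D) (v₂ := -D)
  rw [add_neg_cancel, Finsupp.mapDomain_zero] at h
  exact eq_neg_of_add_eq_zero_right h.symm

theorem mapDomain_sub' (D E : Divisor K F) :
    Finsupp.mapDomain N.r (D - E) = Finsupp.mapDomain N.r D - Finsupp.mapDomain N.r E := by
  rw [sub_eq_add_neg, Finsupp.mapDomain_add, mapDomain_neg', sub_eq_add_neg]

theorem mapDomain_nsmul' (n : ℕ) (D : Divisor K F) :
    Finsupp.mapDomain N.r (n • D) = n • Finsupp.mapDomain N.r D := by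
  induction n with
  | zero => rw [zero_smul, zero_smul, Finsupp.mapDomain_zero]
  | succ m ih => rw [succ_nsmul, succ_nsmul, Finsupp.mapDomain_add, ih]

theorem redDiv₁_single (P : Place K F) (m : ℤ) (Q : Place k Fk₁) (h : N.r P = some (Sum.inl Q)) :
    redDiv₁ N (Finsupp.single P m) = Finsupp.single Q m := by
  classical
  ext Q'
  rw [redDiv₁_apply, Finsupp.mapDomain_single, h, Finsupp.single_apply, Finsupp.single_apply]
  by_cases hQ : Q = Q'
  · rw [if_pos hQ, if_pos (by rw [hQ])]
  · rw [if_neg hQ, if_neg]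
    intro h'
    exact hQ (Sum.inl_injective (Option.some_injective _ h'))

theorem redDiv₂_single (P : Place K F) (m : ℤ) (Q : Place k Fk₂) (h : N.r P = some (Sum.inr Q)) :
    redDiv₂ N (Finsupp.single P m) = Finsupp.single Q m := by
  classical
  ext Q'
  rw [redDiv₂_apply, Finsupp.mapDomain_single, h, Finsupp.single_apply, Finsupp.single_apply]
  by_cases hQ : Q = Q'
  · rw [if_pos hQ, if_pos (by rw [hQ])]
  · rw [if_neg hQ, if_neg]
    intro h'
    exact hQ (Sum.inr_injective (Option.some_injective _ h'))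

theorem redDiv₁_single_of_ne (P : Place K F) (m : ℤ) (h : ∀ Q, N.r P ≠ some (Sum.inl Q)) :
    redDiv₁ N (Finsupp.single P m) = 0 := by
  classical
  ext Q'
  rw [redDiv₁_apply, Finsupp.mapDomain_single, Finsupp.single_apply, if_neg (h Q')]
  rfl

theorem redDiv₂_single_of_ne (P : Place K F) (m : ℤ) (h : ∀ Q, N.r P ≠ some (Sum.inr Q)) :
    redDiv₂ N (Finsupp.single P m) = 0 := by
  classical
  ext Q'
  rw [redDiv₂_apply, Finsupp.mapDomain_single, Finsupp.single_apply, if_neg (h Q')]
  rfl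

/-- nothing reduces to a node. -/
theorem redDiv₁_node (D : Divisor K F) (i : ι) : redDiv₁ N D (N.s₁ i) = 0 := by
  classical
  rw [redDiv₁_apply, Fermat.Agent.S18Key.mapDomain_apply_eq_sum]
  exact Finset.sum_eq_zero fun P _ => if_neg (N.r_ne_node₁ P i)

theorem redDiv₂_node (D : Divisor K F) (i : ι) : redDiv₂ N D (N.s₂ i) = 0 := by
  classical
  rw [redDiv₂_apply, Fermat.Agent.S18Key.mapDomain_apply_eq_sum]
  exact Finset.sum_eq_zero fun P _ => if_neg (N.r_ne_node₂ P i)

theorem redDiv₁_nonneg {D : Divisor K F} (hD : 0 ≤ D) : 0 ≤ redDiv₁ N D := by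
  intro Q
  rw [redDiv₁_apply]
  exact Fermat.Agent.S18Key.mapDomain_nonneg _ _ _ fun P _ => hD P

theorem redDiv₂_nonneg {D : Divisor K F} (hD : 0 ≤ D) : 0 ≤ redDiv₂ N D := by
  intro Q
  rw [redDiv₂_apply]
  exact Fermat.Agent.S18Key.mapDomain_nonneg _ _ _ fun P _ => hD P

/-- **degree formula**. -/
theorem degree_eq_redDiv (D : Divisor K F) :
    Divisor.degree D = Finsupp.mapDomain N.r D none + Divisor.degree (redDiv₁ N D) +
      Divisor.degree (redDiv₂ N D) := by
  classical
  induction D using Finsupp.induction_linear with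
  | zero =>
    rw [redDiv₁_zero, redDiv₂_zero, Finsupp.mapDomain_zero]
    simp
  | add D E hD hE =>
    rw [redDiv₁_add, redDiv₂_add, Finsupp.mapDomain_add, Finsupp.add_apply, map_add, map_add,
      map_add, hD, hE]
    ring
  | single P m =>
    rw [degree_single_one N.S₁.hF]
    rcases hr : N.r P with _ | (Q | Q)
    · rw [redDiv₁_single_of_ne N P m (by rw [hr]; intro Q h; cases h),
        redDiv₂_single_of_ne N P m (by rw [hr]; intro Q h; cases h), Finsupp.mapDomain_single, hr]
      simp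
    · rw [redDiv₁_single N P m Q hr,
        redDiv₂_single_of_ne N P m (by rw [hr]; intro Q h; cases h), Finsupp.mapDomain_single, hr,
        degree_single_one N.S₁.hFk]
      simp
    · rw [redDiv₂_single N P m Q hr,
        redDiv₁_single_of_ne N P m (by rw [hr]; intro Q h; cases h), Finsupp.mapDomain_single, hr,
        degree_single_one N.S₂.hFk]
      simp

theorem mapDomain_none_of_isOrdDiv {D : Divisor K F} (hD : N.IsOrdDiv D) :
    Finsupp.mapDomain N.r D none = 0 := by
  classical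
  rw [Fermat.Agent.S18Key.mapDomain_apply_eq_sum]
  refine Finset.sum_eq_zero fun P hP => if_neg ?_
  obtain ⟨Q, hQ⟩ := hD P (Finsupp.mem_support_iff.mp hP)
  rw [hQ]
  exact fun h => by cases h

theorem degree_of_isOrdDiv {D : Divisor K F} (hD : N.IsOrdDiv D) :
    Divisor.degree D = Divisor.degree (redDiv₁ N D) + Divisor.degree (redDiv₂ N D) := by
  rw [degree_eq_redDiv N D, mapDomain_none_of_isOrdDiv N hD, zero_add]

/-- an effective divisor with `(r_* E)(none) = 0` is ordinary. -/
theorem isOrdDiv_of_nonneg {E : Divisor K F} (hE : 0 ≤ E)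
    (h : Finsupp.mapDomain N.r E none = 0) : N.IsOrdDiv E := by
  intro P hP
  rcases hr : N.r P with _ | Q
  · exfalso
    have h1 := Fermat.Agent.S18Key.le_mapDomain N.r E none (fun P' _ => hE P') P hr
    rw [h] at h1
    have h2 : 0 ≤ E P := hE P
    exact hP (le_antisymm h1 h2)
  · exact ⟨Q, hr⟩

theorem isOrdDiv_add {D E : Divisor K F} (hD : N.IsOrdDiv D) (hE : N.IsOrdDiv E) :
    N.IsOrdDiv (D + E) := by
  intro P hP
  by_cases h : D P = 0
  · apply hE P
    intro h'
    apply hP
    rw [Finsupp.add_apply, h, h', add_zero]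
  · exact hD P h

theorem isOrdDiv_neg {D : Divisor K F} (hD : N.IsOrdDiv D) : N.IsOrdDiv (-D) := by
  intro P hP
  apply hD P
  intro h
  apply hP
  rw [Finsupp.neg_apply, h, neg_zero]

theorem isOrdDiv_sub {D E : Divisor K F} (hD : N.IsOrdDiv D) (hE : N.IsOrdDiv E) :
    N.IsOrdDiv (D - E) := by
  rw [sub_eq_add_neg]
  exact isOrdDiv_add N hD (isOrdDiv_neg N hE)

end RedDiv

end Fermat.Agent.BadRed.Gluing
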