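import Mathlib
import Fermat.Agent.Lib.BadRed.Nodal.Gluing.Values
import Fermat.Agent.Lib.BadRed.Nodal.Gluing.JointLattice

set_option autoImplicit false

/-!
# Cluster T, WP N3 (gluing): gluing data of a `W₀`-divisor

For a `W₀`-divisor `D` (`n D = div g`, `g / c₁` a unit of `Ov₁` with reduction `h₁ ^ n`, `g / c₂` a
unit of `Ov₂` with reduction `h₂ ^ n`, `c₀ ^ n = c₁ / c₂`) and `φ ∈ Ov₁ ∩ c₀ Ov₂`:

* `A φ = red₁ φ * h₁`, `B φ = red₂ (c₀⁻¹ φ) * h₂`;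
* `f φ = φ ^ n * g / c₁ = (c₀⁻¹ φ) ^ n * g / c₂` has divisor `n (div φ + D)` and reductions
  `(A φ) ^ n`, `(B φ) ^ n`.
-/

noncomputable section

open AlgebraicCurve Fermat.Agent.RR Fermat.Agent.Deuring

namespace Fermat.Agent.BadRed.Gluing

variable {K F k Fk₁ Fk₂ ι : Type*} [Field K] [Field F] [Algebra K F]
  [Field k] [Field Fk₁] [Algebra k Fk₁] [Field Fk₂] [Algebra k Fk₂]

/-- gluing data of a `W₀`-divisor for the exponent `n`. -/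
structure GData (N : NodalSetup K F k Fk₁ Fk₂ ι) (n : ℕ) where
  /-- the divisor -/
  D : Divisor K F
  /-- the Kummer generator: `n D = div g` -/
  g : F
  /-- normalising constant for the first valuation -/
  c₁ : K
  /-- normalising constant for the second valuation -/
  c₂ : K
  /-- an `n`-th root of `c₁ / c₂` -/
  c₀ : K
  /-- `n`-th root of the first reduction -/
  h₁ : Fk₁
  /-- `n`-th root of the second reduction -/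
  h₂ : Fk₂
  hdeg : Divisor.degree D = 0
  hg : g ≠ 0
  hdiv : ∀ P : Place K F, P.ord g = n * D P
  hc₁ : c₁ ≠ 0
  hc₂ : c₂ ≠ 0
  hc₀0 : c₀ ≠ 0
  hh₁ : h₁ ≠ 0
  hh₂ : h₂ ≠ 0
  hred₁ : N.S₁.red (g / algebraMap K F c₁) = h₁ ^ n
  hred₂ : N.S₂.red (g / algebraMap K F c₂) = h₂ ^ n
  hc₀ : c₀ ^ n = c₁ / c₂

variable {N : NodalSetup K F k Fk₁ Fk₂ ι} {n : ℕ} (d : GData N n)

namespace GData

/-- the first normalised Kummer generator. -/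
def u₁ : F := d.g / algebraMap K F d.c₁

/-- the second normalised Kummer generator. -/
def u₂ : F := d.g / algebraMap K F d.c₂

theorem red_u₁ : N.S₁.red d.u₁ = d.h₁ ^ n := d.hred₁

theorem red_u₂ : N.S₂.red d.u₂ = d.h₂ ^ n := d.hred₂

theorem red_u₁_ne : N.S₁.red d.u₁ ≠ 0 := by
  rw [d.red_u₁]
  exact pow_ne_zero n d.hh₁

theorem red_u₂_ne : N.S₂.red d.u₂ ≠ 0 := by
  rw [d.red_u₂]
  exact pow_ne_zero n d.hh₂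

theorem u₁_mem : d.u₁ ∈ N.S₁.Ov := N.S₁.mem_of_red_ne_zero d.red_u₁_ne

theorem u₂_mem : d.u₂ ∈ N.S₂.Ov := N.S₂.mem_of_red_ne_zero d.red_u₂_ne

theorem u₁_inv_mem : d.u₁⁻¹ ∈ N.S₁.Ov := N.S₁.inv_mem_of_red_ne_zero d.red_u₁_ne

theorem u₂_inv_mem : d.u₂⁻¹ ∈ N.S₂.Ov := N.S₂.inv_mem_of_red_ne_zero d.red_u₂_ne

theorem u₁_ne_zero : d.u₁ ≠ 0 := N.S₁.ne_zero_of_red_ne_zero d.red_u₁_ne

theorem u₂_ne_zero : d.u₂ ≠ 0 := N.S₂.ne_zero_of_red_ne_zero d.red_u₂_ne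

theorem algebraMap_c₁_ne : algebraMap K F d.c₁ ≠ 0 := (map_ne_zero _).mpr d.hc₁

theorem algebraMap_c₂_ne : algebraMap K F d.c₂ ≠ 0 := (map_ne_zero _).mpr d.hc₂

theorem algebraMap_c₀_ne : algebraMap K F d.c₀ ≠ 0 := (map_ne_zero _).mpr d.hc₀0

/-- `A φ = red₁ φ * h₁`. -/
def A (φ : F) : Fk₁ := N.S₁.red φ * d.h₁

/-- `B φ = red₂ (c₀⁻¹ φ) * h₂`. -/
def B (φ : F) : Fk₂ := N.S₂.red (d.c₀⁻¹ • φ) * d.h₂

/-- `f φ = φ ^ n * g / c₁`. -/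
def f (φ : F) : F := φ ^ n * d.u₁

@[simp] theorem A_zero : d.A 0 = 0 := by simp [A]

@[simp] theorem B_zero : d.B 0 = 0 := by simp [B]

theorem A_add {φ ψ : F} (hφ : φ ∈ N.S₁.Ov) (hψ : ψ ∈ N.S₁.Ov) :
    d.A (φ + ψ) = d.A φ + d.A ψ := by
  unfold A
  rw [N.S₁.red_add hφ hψ, add_mul]

theorem B_add {φ ψ : F} (hφ : d.c₀⁻¹ • φ ∈ N.S₂.Ov) (hψ : d.c₀⁻¹ • ψ ∈ N.S₂.Ov) :
    d.B (φ + ψ) = d.B φ + d.B ψ := by
  unfold B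
  rw [smul_add, N.S₂.red_add hφ hψ, add_mul]

theorem A_smul {a : K} (ha : a ∈ N.S₁.A) {φ : F} (hφ : φ ∈ N.S₁.Ov) :
    d.A (a • φ) = N.S₁.res ⟨a, ha⟩ • d.A φ := by
  unfold A
  rw [N.S₁.red_smul ha hφ, smul_mul_assoc]

theorem B_smul {a : K} (ha : a ∈ N.S₁.A) {φ : F} (hφ : d.c₀⁻¹ • φ ∈ N.S₂.Ov) :
    d.B (a • φ) = N.S₁.res ⟨a, ha⟩ • d.B φ := by
  unfold B
  have ha₂ : a ∈ N.S₂.A := N.A_eq ▸ ha
  rw [smul_comm, N.S₂.red_smul ha₂ hφ, smul_mul_assoc, N.res_eq a ha ha₂]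

theorem A_ne_zero_iff (φ : F) : d.A φ ≠ 0 ↔ N.S₁.red φ ≠ 0 := by
  unfold A
  exact ⟨fun h h0 => h (by rw [h0, zero_mul]), fun h => mul_ne_zero h d.hh₁⟩

theorem B_ne_zero_iff (φ : F) : d.B φ ≠ 0 ↔ N.S₂.red (d.c₀⁻¹ • φ) ≠ 0 := by
  unfold B
  exact ⟨fun h h0 => h (by rw [h0, zero_mul]), fun h => mul_ne_zero h d.hh₂⟩

theorem u₂_eq : d.u₂ = d.u₁ * algebraMap K F d.c₀ ^ n := by
  unfold u₁ u₂
  rw [← map_pow, d.hc₀, map_div₀]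
  have h1 := d.algebraMap_c₁_ne
  have h2 := d.algebraMap_c₂_ne
  field_simp

theorem f_eq₂ (φ : F) : d.f φ = (d.c₀⁻¹ • φ) ^ n * d.u₂ := by
  unfold f
  rw [d.u₂_eq, Algebra.smul_def, mul_pow, map_inv₀, inv_pow]
  have h0 : algebraMap K F d.c₀ ^ n ≠ 0 := pow_ne_zero n d.algebraMap_c₀_ne
  field_simp

theorem f_mem₁ {φ : F} (hφ : φ ∈ N.S₁.Ov) : d.f φ ∈ N.S₁.Ov :=
  mul_mem (pow_mem hφ n) d.u₁_mem

theorem f_mem₂ {φ : F} (hφ : d.c₀⁻¹ • φ ∈ N.S₂.Ov) : d.f φ ∈ N.S₂.Ov := by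
  rw [d.f_eq₂]
  exact mul_mem (pow_mem hφ n) d.u₂_mem

theorem red₁_f {φ : F} (hφ : φ ∈ N.S₁.Ov) : N.S₁.red (d.f φ) = d.A φ ^ n := by
  unfold f A
  rw [N.S₁.red_mul (pow_mem hφ n) d.u₁_mem, N.S₁.red_pow hφ, d.red_u₁, mul_pow]

theorem red₂_f {φ : F} (hφ : d.c₀⁻¹ • φ ∈ N.S₂.Ov) : N.S₂.red (d.f φ) = d.B φ ^ n := by
  rw [d.f_eq₂]
  unfold B
  rw [N.S₂.red_mul (pow_mem hφ n) d.u₂_mem, N.S₂.red_pow hφ, d.red_u₂, mul_pow]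

theorem f_ne_zero {φ : F} (hφ : φ ≠ 0) : d.f φ ≠ 0 :=
  mul_ne_zero (pow_ne_zero n hφ) d.u₁_ne_zero

theorem ord_u₁ (P : Place K F) : P.ord d.u₁ = n * d.D P := by
  unfold u₁
  rw [div_eq_mul_inv, P.ord_mul d.hg (inv_ne_zero d.algebraMap_c₁_ne), P.ord_inv,
    Fermat.Agent.S24Res.ord_algebraMap, neg_zero, add_zero, d.hdiv]

theorem ord_f {φ : F} (hφ : φ ≠ 0) (P : Place K F) :
    P.ord (d.f φ) = n * (P.ord φ + d.D P) := by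
  unfold f
  rw [P.ord_mul (pow_ne_zero n hφ) d.u₁_ne_zero, ord_pow_nat, d.ord_u₁]
  ring

theorem divOf_f {φ : F} (hφ : φ ≠ 0) :
    divOf N.S₁.hF (d.f φ) = n • (divOf N.S₁.hF φ + d.D) := by
  ext P
  rw [divOf_apply, d.ord_f hφ, Finsupp.smul_apply, Finsupp.add_apply, divOf_apply]
  simp

/-- if `A φ ≠ 0` then `f φ` is a unit of `Ov₁`. -/
theorem f_inv_mem₁ {φ : F} (hφ : φ ∈ N.S₁.Ov) (hA : d.A φ ≠ 0) : (d.f φ)⁻¹ ∈ N.S₁.Ov := by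
  apply N.S₁.inv_mem_of_red_ne_zero
  rw [d.red₁_f hφ]
  exact pow_ne_zero n hA

theorem f_inv_mem₂ {φ : F} (hφ : d.c₀⁻¹ • φ ∈ N.S₂.Ov) (hB : d.B φ ≠ 0) :
    (d.f φ)⁻¹ ∈ N.S₂.Ov := by
  apply N.S₂.inv_mem_of_red_ne_zero
  rw [d.red₂_f hφ]
  exact pow_ne_zero n hB

/-- admissible functions: integral for both valuations, nonzero, and `div φ + D ≥ 0` on the
annuli. -/
def Adm (φ : F) : Prop :=
  φ ≠ 0 ∧ φ ∈ N.S₁.Ov ∧ d.c₀⁻¹ • φ ∈ N.S₂.Ov ∧ ∀ P, N.r P = none → 0 ≤ P.ord φ + d.D P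

/-- **node condition for admissible functions.** -/
theorem node_of_adm (hn : n ≠ 0) {φ : F} (h : d.Adm φ) (i : ι) :
    ∃ z : k, z ^ n = 1 ∧ ∃ c : k, ValAt (N.s₁ i) (d.A φ) (z * c) ∧ ValAt (N.s₂ i) (d.B φ) c := by
  obtain ⟨hφ0, hφ1, hφ2, hann⟩ := h
  have hnode := N.node (d.f φ) (d.f_mem₁ hφ1) (d.f_mem₂ hφ2) (fun P hP => by
    rw [d.ord_f hφ0]
    exact mul_nonneg (Int.natCast_nonneg n) (hann P hP)) i
  rw [d.red₁_f hφ1, d.red₂_f hφ2] at hnode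
  exact exists_root_of_unity N.S₁.hFk N.S₂.hFk _ _ hn hnode.1 hnode.2.1 hnode.2.2

end GData

end Fermat.Agent.BadRed.Gluing
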