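import Mathlib
import Fermat.Agent.Lib.BadRed.Nodal.Gluing.Data

set_option autoImplicit false
set_option linter.unusedVariables false

/-!
# Cluster T, WP N3 (gluing): pole bounds for `A φ`, `B φ` and ordinarity of the generic divisor

For gluing data `d : GData N n`, an ordinary effective divisor `R` and `φ ∈ L(R + D)` integral for
both (scaled) valuations:

* `GData.A_mem`, `GData.B_mem` : `A φ ∈ L(r_* R)` on the first component, `B φ ∈ L(r_* R)` on the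
  second one (push at the smooth points, node condition at the nodes);
* `GData.ordinary_of_generic` : if `A φ`, `B φ` are nonzero and units at all nodes, then
  `E = div φ + D + R` is effective, ORDINARY, with reduction `div (A φ) + r_* R`,
  `div (B φ) + r_* R` (degree count).
-/

noncomputable section

open AlgebraicCurve Fermat.Agent.RR Fermat.Agent.Deuring

namespace Fermat.Agent.BadRed.Gluing

variable {K F k Fk₁ Fk₂ ι : Type*} [Field K] [Field F] [Algebra K F]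
  [Field k] [Field Fk₁] [Algebra k Fk₁] [Field Fk₂] [Algebra k Fk₂]
  {N : NodalSetup K F k Fk₁ Fk₂ ι} {n : ℕ} (d : GData N n)

namespace GData

/-- `div φ + D + R ≥ 0` for `φ ∈ L(R + D)`, `φ ≠ 0`. -/
theorem push_nonneg_E {R : Divisor K F} {φ : F} (hφ0 : φ ≠ 0)
    (hφL : φ ∈ riemannRochSpace (R + d.D)) : 0 ≤ divOf N.S₁.hF φ + d.D + R := by
  intro P
  have h := ((mem_riemannRochSpace_iff.mp hφL) P).resolve_left hφ0
  rw [Finsupp.add_apply] at h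
  show (0 : Divisor K F) P ≤ (divOf N.S₁.hF φ + d.D + R) P
  rw [Finsupp.add_apply, Finsupp.add_apply, divOf_apply, Finsupp.zero_apply]
  linarith

/-- `f φ` has no pole in the annuli if `R` is ordinary. -/
theorem push_ord_f_nonneg {R : Divisor K F} (hRord : N.IsOrdDiv R) {φ : F} (hφ0 : φ ≠ 0)
    (hφL : φ ∈ riemannRochSpace (R + d.D)) (P : Place K F) (hP : N.r P = none) :
    0 ≤ P.ord (d.f φ) := by
  have h := ((mem_riemannRochSpace_iff.mp hφL) P).resolve_left hφ0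
  rw [Finsupp.add_apply] at h
  have hR : R P = 0 := by
    by_contra hne
    obtain ⟨Q, hQ⟩ := hRord P hne
    rw [hP] at hQ
    cases hQ
  rw [d.ord_f hφ0]
  apply mul_nonneg (Int.natCast_nonneg n)
  linarith

/-- the reduction of `div φ + D` in terms of `f φ`. -/
theorem push_mapDomain_f {φ : F} (hφ0 : φ ≠ 0) (X : Option (Place k Fk₁ ⊕ Place k Fk₂)) :
    Finsupp.mapDomain N.r (divOf N.S₁.hF (d.f φ)) X =
      n * Finsupp.mapDomain N.r (divOf N.S₁.hF φ + d.D) X := by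
  rw [d.divOf_f hφ0, mapDomain_nsmul', Finsupp.smul_apply]
  simp

/-- first component, smooth points: `r_* (div φ + D) = div (A φ)`. -/
theorem push_eq₁ (hn : n ≠ 0) {φ : F} (hφ1 : φ ∈ N.S₁.Ov) (hA : d.A φ ≠ 0)
    (Q : Place k Fk₁) (hQ : ∀ i, Q ≠ N.s₁ i) :
    Finsupp.mapDomain N.r (divOf N.S₁.hF φ + d.D) (some (Sum.inl Q)) = Q.ord (d.A φ) := by
  have hφ0 : φ ≠ 0 := N.S₁.ne_zero_of_red_ne_zero ((d.A_ne_zero_iff φ).mp hA)
  have h := N.push₁ (d.f φ) (d.f_mem₁ hφ1) (d.f_inv_mem₁ hφ1 hA) (d.f_ne_zero hφ0) Q hQ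
  rw [d.push_mapDomain_f hφ0, d.red₁_f hφ1, ord_pow_nat] at h
  have hn' : (n : ℤ) ≠ 0 := by exact_mod_cast hn
  exact mul_left_cancel₀ hn' h

/-- second component, smooth points: `r_* (div φ + D) = div (B φ)`. -/
theorem push_eq₂ (hn : n ≠ 0) {φ : F} (hφ2 : d.c₀⁻¹ • φ ∈ N.S₂.Ov) (hB : d.B φ ≠ 0)
    (Q : Place k Fk₂) (hQ : ∀ i, Q ≠ N.s₂ i) :
    Finsupp.mapDomain N.r (divOf N.S₁.hF φ + d.D) (some (Sum.inr Q)) = Q.ord (d.B φ) := by
  have hφ0 : φ ≠ 0 := by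
    rintro rfl
    exact hB d.B_zero
  have h := N.push₂ (d.f φ) (d.f_mem₂ hφ2) (d.f_inv_mem₂ hφ2 hB) (d.f_ne_zero hφ0) Q hQ
  rw [d.push_mapDomain_f hφ0, d.red₂_f hφ2, ord_pow_nat] at h
  have hn' : (n : ℤ) ≠ 0 := by exact_mod_cast hn
  exact mul_left_cancel₀ hn' h

/-- `r_* (div φ + D) ≥ - r_* R`. -/
theorem push_mapDomain_ge {R : Divisor K F} {φ : F} (hφ0 : φ ≠ 0)
    (hφL : φ ∈ riemannRochSpace (R + d.D)) (X : Option (Place k Fk₁ ⊕ Place k Fk₂)) :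
    -Finsupp.mapDomain N.r R X ≤ Finsupp.mapDomain N.r (divOf N.S₁.hF φ + d.D) X := by
  have hE := d.push_nonneg_E hφ0 hφL
  have h0 : 0 ≤ Finsupp.mapDomain N.r (divOf N.S₁.hF φ + d.D + R) X :=
    Fermat.Agent.S18Key.mapDomain_nonneg _ _ _ fun P _ => hE P
  rw [Finsupp.mapDomain_add, Finsupp.add_apply] at h0
  linarith

/-- **pole bound, first component.** -/
theorem A_mem (hn : n ≠ 0) {R : Divisor K F} (hR0 : 0 ≤ R) (hRord : N.IsOrdDiv R) {φ : F}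
    (hφL : φ ∈ riemannRochSpace (R + d.D)) (hφ1 : φ ∈ N.S₁.Ov)
    (hφ2 : d.c₀⁻¹ • φ ∈ N.S₂.Ov) :
    d.A φ ∈ riemannRochSpace (redDiv₁ N R) := by
  rw [mem_riemannRochSpace_iff]
  intro Q
  by_cases hA : d.A φ = 0
  · exact Or.inl hA
  right
  have hφ0 : φ ≠ 0 := N.S₁.ne_zero_of_red_ne_zero ((d.A_ne_zero_iff φ).mp hA)
  by_cases hQ : ∀ i, Q ≠ N.s₁ i
  · rw [← d.push_eq₁ hn hφ1 hA Q hQ, redDiv₁_apply]
    exact d.push_mapDomain_ge hφ0 hφL _
  · push Not at hQ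
    obtain ⟨i, rfl⟩ := hQ
    rw [redDiv₁_node, neg_zero]
    have hnode := N.node (d.f φ) (d.f_mem₁ hφ1) (d.f_mem₂ hφ2)
      (d.push_ord_f_nonneg hRord hφ0 hφL) i
    rw [d.red₁_f hφ1] at hnode
    exact ord_nonneg_of_pow hn hnode.1

/-- **pole bound, second component.** -/
theorem B_mem (hn : n ≠ 0) {R : Divisor K F} (hR0 : 0 ≤ R) (hRord : N.IsOrdDiv R) {φ : F}
    (hφL : φ ∈ riemannRochSpace (R + d.D)) (hφ1 : φ ∈ N.S₁.Ov)
    (hφ2 : d.c₀⁻¹ • φ ∈ N.S₂.Ov) :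
    d.B φ ∈ riemannRochSpace (redDiv₂ N R) := by
  rw [mem_riemannRochSpace_iff]
  intro Q
  by_cases hB : d.B φ = 0
  · exact Or.inl hB
  right
  have hφ0 : φ ≠ 0 := by
    rintro rfl
    exact hB d.B_zero
  by_cases hQ : ∀ i, Q ≠ N.s₂ i
  · rw [← d.push_eq₂ hn hφ2 hB Q hQ, redDiv₂_apply]
    exact d.push_mapDomain_ge hφ0 hφL _
  · push Not at hQ
    obtain ⟨i, rfl⟩ := hQ
    rw [redDiv₂_node, neg_zero]
    have hnode := N.node (d.f φ) (d.f_mem₁ hφ1) (d.f_mem₂ hφ2)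
      (d.push_ord_f_nonneg hRord hφ0 hφL) i
    rw [d.red₂_f hφ2] at hnode
    exact ord_nonneg_of_pow hn hnode.2.1

/-- **the generic divisor is ordinary.** -/
theorem ordinary_of_generic (hn : n ≠ 0) {R : Divisor K F} (hR0 : 0 ≤ R)
    (hRord : N.IsOrdDiv R) {φ : F} (hφ0 : φ ≠ 0)
    (hφL : φ ∈ riemannRochSpace (R + d.D)) (hφ1 : φ ∈ N.S₁.Ov)
    (hφ2 : d.c₀⁻¹ • φ ∈ N.S₂.Ov)
    (hA : d.A φ ≠ 0) (hB : d.B φ ≠ 0)
    (hA0 : ∀ i, (N.s₁ i).ord (d.A φ) = 0) (hB0 : ∀ i, (N.s₂ i).ord (d.B φ) = 0) :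
    0 ≤ divOf N.S₁.hF φ + d.D + R ∧ N.IsOrdDiv (divOf N.S₁.hF φ + d.D + R) ∧
      redDiv₁ N (divOf N.S₁.hF φ + d.D + R) = divOf N.S₁.hFk (d.A φ) + redDiv₁ N R ∧
      redDiv₂ N (divOf N.S₁.hF φ + d.D + R) = divOf N.S₂.hFk (d.B φ) + redDiv₂ N R := by
  have hE := d.push_nonneg_E hφ0 hφL
  have h1 : redDiv₁ N (divOf N.S₁.hF φ + d.D + R) =
      divOf N.S₁.hFk (d.A φ) + redDiv₁ N R := by
    rw [redDiv₁_add]
    congr 1
    ext Q
    rw [redDiv₁_apply, divOf_apply]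
    by_cases hQ : ∀ i, Q ≠ N.s₁ i
    · exact d.push_eq₁ hn hφ1 hA Q hQ
    · push Not at hQ
      obtain ⟨i, rfl⟩ := hQ
      rw [hA0 i, ← redDiv₁_apply, redDiv₁_node]
  have h2 : redDiv₂ N (divOf N.S₁.hF φ + d.D + R) =
      divOf N.S₂.hFk (d.B φ) + redDiv₂ N R := by
    rw [redDiv₂_add]
    congr 1
    ext Q
    rw [redDiv₂_apply, divOf_apply]
    by_cases hQ : ∀ i, Q ≠ N.s₂ i
    · exact d.push_eq₂ hn hφ2 hB Q hQ
    · push Not at hQ
      obtain ⟨i, rfl⟩ := hQ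
      rw [hB0 i, ← redDiv₂_apply, redDiv₂_node]
  refine ⟨hE, ?_, h1, h2⟩
  apply isOrdDiv_of_nonneg N hE
  have hdeg := degree_eq_redDiv N (divOf N.S₁.hF φ + d.D + R)
  rw [h1, h2, map_add, map_add, map_add, map_add, degree_divOf, degree_divOf, degree_divOf,
    d.hdeg, degree_of_isOrdDiv N hRord] at hdeg
  linarith

end GData

end Fermat.Agent.BadRed.Gluing
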