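import Mathlib
import Fermat.Agent.Lib.BadRed.Nodal.Gluing.Push
import Fermat.Agent.Lib.BadRed.Nodal.ToricKeyDef

set_option autoImplicit false
set_option linter.unusedVariables false

/-!
# Cluster T, WP N3 (gluing), step (M2): inertia acts trivially on the toric part

`abstractToricKey_of_ordinary` : if the conclusion of the nodal key lemma holds
(`KeyConclusion N`) and every gluing datum has an ordinary representative (hypothesis `hord`,
proved in `Gluing/Ordinary.lean`), then `AbstractToricKeyStatement N` holds: for `g` with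
`n ∣ div g` and both reductions equal to `1`, and `t` inertial, `t g / g` is a constant times an
`n`-th power.

Proof.  `D = div g / n`, `D₀ = div φ + D = E - R` ordinary.  `D' = D₀ - t D₀` has degree `0`,
trivial reduction (`r ∘ t = r`) and `n D' = div (f / t f)`, `f = φ ^ n g`.  The key lemma gives
`D' = div u₀`, hence `D - t D = div (u₀ t φ / φ)` and `g / t g` and `(u₀ t φ / φ) ^ n` have the
same divisor.
-/

noncomputable section

open AlgebraicCurve Fermat.Agent.RR Fermat.Agent.Deuring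

namespace Fermat.Agent.BadRed.Gluing

variable {K F k Fk₁ Fk₂ ι : Type*} [Field K] [Field F] [Algebra K F]
  [Field k] [Field Fk₁] [Algebra k Fk₁] [Field Fk₂] [Algebra k Fk₂]

/-- the conclusion of the nodal key lemma (N2), as a hypothesis. -/
def KeyConclusion (N : NodalSetup K F k Fk₁ Fk₂ ι) : Prop :=
  ∀ m : ℕ, (m : K) ≠ 0 → ((m : K))⁻¹ ∈ N.S₁.A → ∀ D : Divisor K F,
    Divisor.degree D = 0 → N.RedTrivial D →
    (m • D) ∈ Divisor.principal (K := K) (F := F) → D ∈ Divisor.principal (K := K) (F := F)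

section Aux

variable (N : NodalSetup K F k Fk₁ Fk₂ ι)

/-- `(t • v).ord (t • f) = v.ord f`, in the form `v.ord (t • f) = (t⁻¹ • v).ord f`. -/
theorem inertia_ord_smul (t : SemilinearAut K F) (v : Place K F) (f : F) :
    v.ord (t • f) = (t⁻¹ • v).ord f := by
  have h := SemilinearAut.ord_smul t (t⁻¹ • v) f
  rw [smul_inv_smul] at h
  exact h

/-- `t • div f = div (t • f)`. -/
theorem inertia_smul_divOf (h : IsRRField K F) (t : SemilinearAut K F) (f : F) :
    t • divOf h f = divOf h (t • f) := by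
  ext v
  rw [SemilinearAut.divisor_smul_apply, divOf_apply, divOf_apply, inertia_ord_smul]

/-- inertial automorphisms preserve ordinary divisors. -/
theorem inertia_isOrdDiv_smul {t : SemilinearAut K F} (ht : N.IsInertial t) {D : Divisor K F}
    (hD : N.IsOrdDiv D) : N.IsOrdDiv (t • D) := by
  intro P hP
  rw [SemilinearAut.divisor_smul_apply] at hP
  obtain ⟨Q, hQ⟩ := hD _ hP
  refine ⟨Q, ?_⟩
  have h := ht.r_smul (t⁻¹ • P)
  rw [smul_inv_smul] at h
  rw [h, hQ]

/-- inertial automorphisms do not change the reduction of a divisor. -/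
theorem inertia_mapDomain_smul {t : SemilinearAut K F} (ht : N.IsInertial t) (D : Divisor K F) :
    Finsupp.mapDomain N.r (t • D) = Finsupp.mapDomain N.r D := by
  rw [SemilinearAut.divisor_smul_def, ← Finsupp.mapDomain_comp]
  congr 1
  funext P
  exact ht.r_smul P

/-- a nonzero function without zeros and poles is a nonzero constant. -/
theorem inertia_exists_const (h : IsRRField K F) {f : F} (hf : f ≠ 0)
    (hord : ∀ v : Place K F, v.ord f = 0) : ∃ c : K, c ≠ 0 ∧ f = algebraMap K F c := by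
  have hmem : f ∈ riemannRochSpace (0 : Divisor K F) := by
    rw [mem_riemannRochSpace_iff]
    intro v
    right
    rw [hord v]
    simp
  obtain ⟨c, hc⟩ := (mem_riemannRochSpace_zero_iff h f).mp hmem
  refine ⟨c, ?_, hc.symm⟩
  rintro rfl
  rw [map_zero] at hc
  exact hf hc.symm

/-- the divisor `div g / n`. -/
def kummerDiv (h : IsRRField K F) (g : F) (n : ℕ) : Divisor K F :=
  Finsupp.mapRange (fun z : ℤ => z / (n : ℤ)) (by simp) (divOf h g)

theorem kummerDiv_apply (h : IsRRField K F) (g : F) (n : ℕ) (P : Place K F) :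
    kummerDiv h g n P = P.ord g / (n : ℤ) := by
  unfold kummerDiv
  rw [Finsupp.mapRange_apply, divOf_apply]

theorem kummerDiv_spec (h : IsRRField K F) {g : F} {n : ℕ}
    (hdvd : ∀ P : Place K F, (n : ℤ) ∣ P.ord g) (P : Place K F) :
    P.ord g = n * kummerDiv h g n P := by
  rw [kummerDiv_apply]
  exact (Int.mul_ediv_cancel' (hdvd P)).symm

theorem kummerDiv_degree (h : IsRRField K F) {g : F} {n : ℕ} (hn : n ≠ 0)
    (hdvd : ∀ P : Place K F, (n : ℤ) ∣ P.ord g) :
    Divisor.degree (kummerDiv h g n) = 0 := by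
  have h1 : n • kummerDiv h g n = divOf h g := by
    ext P
    rw [Finsupp.smul_apply, divOf_apply, kummerDiv_spec h hdvd P]
    simp
  have h2 : Divisor.degree (n • kummerDiv h g n) = 0 := by rw [h1, degree_divOf]
  rw [map_nsmul, nsmul_eq_mul] at h2
  have hn' : (n : ℤ) ≠ 0 := by exact_mod_cast hn
  exact (mul_eq_zero.mp h2).resolve_left hn'

/-- the gluing datum of a function `g` with `n ∣ div g` and both reductions `1`. -/
def GData.ofUnit {n : ℕ} (hn : n ≠ 0) {g : F} (hg0 : g ≠ 0)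
    (hdvd : ∀ P : Place K F, (n : ℤ) ∣ P.ord g)
    (hr1 : N.S₁.red g = 1) (hr2 : N.S₂.red g = 1) : GData N n where
  D := kummerDiv N.S₁.hF g n
  g := g
  c₁ := 1
  c₂ := 1
  c₀ := 1
  h₁ := 1
  h₂ := 1
  hdeg := kummerDiv_degree N.S₁.hF hn hdvd
  hg := hg0
  hdiv := kummerDiv_spec N.S₁.hF hdvd
  hc₁ := one_ne_zero
  hc₂ := one_ne_zero
  hc₀0 := one_ne_zero
  hh₁ := one_ne_zero
  hh₂ := one_ne_zero
  hred₁ := by rw [map_one, div_one, hr1, one_pow]
  hred₂ := by rw [map_one, div_one, hr2, one_pow]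
  hc₀ := by rw [one_pow, div_one]

end Aux

/-- **(M2)** inertial automorphisms act trivially on the toric part, from the key lemma and the
existence of ordinary representatives. -/
theorem abstractToricKey_of_ordinary [Fintype ι] (N : NodalSetup K F k Fk₁ Fk₂ ι)
    (hKey : KeyConclusion N)
    (hord : N.GenusRel → ∀ n : ℕ, (n : K) ≠ 0 → ((n : K))⁻¹ ∈ N.S₁.A → ∀ d : GData N n,
      ∃ (R : Divisor K F) (φ : F), N.IsOrdDiv R ∧ φ ≠ 0 ∧
        N.IsOrdDiv (divOf N.S₁.hF φ + d.D + R)) :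
    AbstractToricKeyStatement N := by
  intro hrel n hn0 hnA t ht g hg0 hdvd hg1 hr1 hg2 hr2
  have hn : n ≠ 0 := by
    rintro rfl
    exact hn0 Nat.cast_zero
  have hnZ : (n : ℤ) ≠ 0 := by exact_mod_cast hn
  set d : GData N n := GData.ofUnit N hn hg0 hdvd hr1 hr2 with hd
  have hdD : ∀ P : Place K F, P.ord g = n * d.D P := d.hdiv
  obtain ⟨R, φ, hR, hφ0, hE⟩ := hord hrel n hn0 hnA d
  set D₀ : Divisor K F := divOf N.S₁.hF φ + d.D with hD₀
  have hD₀ord : N.IsOrdDiv D₀ := by
    have h := isOrdDiv_sub N hE hR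
    rwa [add_sub_cancel_right] at h
  have hD₀v : ∀ v : Place K F, D₀ v = v.ord φ + d.D v := fun v => by
    rw [hD₀, Finsupp.add_apply, divOf_apply]
  set D' : Divisor K F := D₀ - t • D₀ with hD'
  have hD'v : ∀ v : Place K F, D' v = D₀ v - D₀ (t⁻¹ • v) := fun v => by
    rw [hD', Finsupp.sub_apply, SemilinearAut.divisor_smul_apply]
  have hdeg' : Divisor.degree D' = 0 := by
    rw [hD', map_sub, SemilinearAut.degree_smul, sub_self]
  have hred' : N.RedTrivial D' := by
    refine ⟨isOrdDiv_sub N hD₀ord (inertia_isOrdDiv_smul N ht hD₀ord), fun Q => ?_⟩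
    rw [hD', mapDomain_sub', inertia_mapDomain_smul N ht, sub_self]
    rfl
  -- `n D' = div (f / t f)`
  set f : F := φ ^ n * g with hf
  have hf0 : f ≠ 0 := mul_ne_zero (pow_ne_zero n hφ0) hg0
  have htf0 : t • f ≠ 0 := by
    rw [SemilinearAut.smul_def]
    exact (map_ne_zero _).mpr hf0
  have hfv : ∀ v : Place K F, v.ord f = n * D₀ v := fun v => by
    rw [hf, v.ord_mul (pow_ne_zero n hφ0) hg0, ord_pow_nat, hdD v, hD₀v v]
    ring
  have hprinc : (n • D') ∈ Divisor.principal (K := K) (F := F) := by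
    refine ⟨f / (t • f), div_ne_zero hf0 htf0, fun v => ?_⟩
    rw [div_eq_mul_inv, v.ord_mul hf0 (inv_ne_zero htf0), v.ord_inv, inertia_ord_smul, hfv,
      hfv, Finsupp.smul_apply, hD'v]
    simp only [nsmul_eq_mul]
    ring
  obtain ⟨u₀, hu₀, hu₀D⟩ := hKey n hn0 hnA D' hdeg' hred' hprinc
  -- the function `w = u₀ t φ / φ` has divisor `D - t D`
  have htφ0 : t • φ ≠ 0 := by
    rw [SemilinearAut.smul_def]
    exact (map_ne_zero _).mpr hφ0
  have htg0 : t • g ≠ 0 := by
    rw [SemilinearAut.smul_def]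
    exact (map_ne_zero _).mpr hg0
  set w : F := u₀ * (t • φ) * φ⁻¹ with hw
  have hw0 : w ≠ 0 := mul_ne_zero (mul_ne_zero hu₀ htφ0) (inv_ne_zero hφ0)
  have hwv : ∀ v : Place K F, v.ord w = d.D v - d.D (t⁻¹ • v) := fun v => by
    rw [hw, v.ord_mul (mul_ne_zero hu₀ htφ0) (inv_ne_zero hφ0), v.ord_mul hu₀ htφ0, v.ord_inv,
      inertia_ord_smul, ← hu₀D v, hD'v, hD₀v, hD₀v]
    ring
  set c' : F := g * (t • g)⁻¹ * (w ^ n)⁻¹ with hc'
  have hc'0 : c' ≠ 0 :=
    mul_ne_zero (mul_ne_zero hg0 (inv_ne_zero htg0)) (inv_ne_zero (pow_ne_zero n hw0))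
  have hc'v : ∀ v : Place K F, v.ord c' = 0 := fun v => by
    rw [hc', v.ord_mul (mul_ne_zero hg0 (inv_ne_zero htg0)) (inv_ne_zero (pow_ne_zero n hw0)),
      v.ord_mul hg0 (inv_ne_zero htg0), v.ord_inv, v.ord_inv, ord_pow_nat, inertia_ord_smul,
      hwv, hdD v, hdD (t⁻¹ • v)]
    ring
  obtain ⟨c, hc0, hc⟩ := inertia_exists_const N.S₁.hF hc'0 hc'v
  refine ⟨w⁻¹, c, hc0, ?_⟩
  rw [← hc, hc', inv_pow]
  have hwn : w ^ n ≠ 0 := pow_ne_zero n hw0
  field_simp

end Fermat.Agent.BadRed.Gluing
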