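import Mathlib
import Fermat.Agent.Lib.BadRed.Nodal.Gluing.Push

set_option autoImplicit false
set_option linter.unusedVariables false

/-!
# Cluster T, WP N3 (gluing), (M3a): two gluing data with the same generic reduction are linearly
equivalent (helper7)

`GData.sub_mem_principal_of_generic`: let `d`, `d'` be gluing data for the exponent `n` (a unit of
`A`), `R ≥ 0` ordinary, `φ ∈ L(R + D) ∩ Ov₁ ∩ c₀ Ov₂`, `φ' ∈ L(R + D') ∩ Ov₁ ∩ c₀' Ov₂` with the
SAME reductions `(A φ, B φ) = (A' φ', B' φ')`, nonzero and units at all nodes.  Then `D - D'` is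
principal.

Proof.  `E = div φ + D + R`, `E' = div φ' + D' + R` are effective, ordinary, with the same
reduction (`ordinary_of_generic`); so `E - E'` is in the kernel of reduction, of degree `0`, and
`n (E - E') = div (f φ / f' φ')`.  By the nodal KEY LEMMA (hypothesis `hKey`, the conclusion of
`NodalKeyOfNS`) `E - E'` is principal, and `D - D' = (E - E') - div (φ / φ')`.
-/

noncomputable section

open AlgebraicCurve Fermat.Agent.RR Fermat.Agent.Deuring

namespace Fermat.Agent.BadRed.Gluing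

variable {K F k Fk₁ Fk₂ ι : Type*} [Field K] [Field F] [Algebra K F]
  [Field k] [Field Fk₁] [Algebra k Fk₁] [Field Fk₂] [Algebra k Fk₂]
  {N : NodalSetup K F k Fk₁ Fk₂ ι} {n : ℕ}

/-- the divisor of a nonzero function is principal. -/
theorem inj_divOf_mem_principal (h : IsRRField K F) {f : F} (hf : f ≠ 0) :
    divOf h f ∈ Divisor.principal (K := K) (F := F) :=
  ⟨f, hf, fun v => divOf_apply h f v⟩

/-- a divisor of the generic fibre with trivial reductions on both components is in the kernel of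
reduction. -/
theorem inj_redTrivial_of_redDiv (N : NodalSetup K F k Fk₁ Fk₂ ι) {D : Divisor K F}
    (hD : N.IsOrdDiv D) (h₁ : redDiv₁ N D = 0) (h₂ : redDiv₂ N D = 0) : N.RedTrivial D := by
  refine ⟨hD, fun X => ?_⟩
  rcases X with Q | Q
  · rw [← redDiv₁_apply, h₁, Finsupp.zero_apply]
  · rw [← redDiv₂_apply, h₂, Finsupp.zero_apply]

theorem inj_redDiv₁_sub (N : NodalSetup K F k Fk₁ Fk₂ ι) (D E : Divisor K F) :
    redDiv₁ N (D - E) = redDiv₁ N D - redDiv₁ N E := by
  have h := redDiv₁_add N (D - E) E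
  rw [sub_add_cancel] at h
  rw [h, add_sub_cancel_right]

theorem inj_redDiv₂_sub (N : NodalSetup K F k Fk₁ Fk₂ ι) (D E : Divisor K F) :
    redDiv₂ N (D - E) = redDiv₂ N D - redDiv₂ N E := by
  have h := redDiv₂_add N (D - E) E
  rw [sub_add_cancel] at h
  rw [h, add_sub_cancel_right]

/-- **(M3a)** two gluing data with the same generic reduction are linearly equivalent.
`hKey` is the conclusion of the nodal key lemma (`NodalKeyOfNS`). -/
theorem GData.sub_mem_principal_of_generic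
    (hKey : ∀ m : ℕ, (m : K) ≠ 0 → ((m : K))⁻¹ ∈ N.S₁.A →
      ∀ D : Divisor K F, Divisor.degree D = 0 → N.RedTrivial D →
        (m • D) ∈ Divisor.principal (K := K) (F := F) →
        D ∈ Divisor.principal (K := K) (F := F))
    (hn0 : (n : K) ≠ 0) (hnA : ((n : K))⁻¹ ∈ N.S₁.A)
    (d d' : GData N n) {R : Divisor K F} (hR0 : 0 ≤ R) (hRord : N.IsOrdDiv R) {φ φ' : F}
    (hφ0 : φ ≠ 0) (hφL : φ ∈ riemannRochSpace (R + d.D)) (hφ1 : φ ∈ N.S₁.Ov)
    (hφ2 : d.c₀⁻¹ • φ ∈ N.S₂.Ov)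
    (hφ'0 : φ' ≠ 0) (hφ'L : φ' ∈ riemannRochSpace (R + d'.D)) (hφ'1 : φ' ∈ N.S₁.Ov)
    (hφ'2 : d'.c₀⁻¹ • φ' ∈ N.S₂.Ov)
    (hA : d.A φ ≠ 0) (hB : d.B φ ≠ 0) (hA0 : ∀ i, (N.s₁ i).ord (d.A φ) = 0)
    (hB0 : ∀ i, (N.s₂ i).ord (d.B φ) = 0)
    (hAA : d'.A φ' = d.A φ) (hBB : d'.B φ' = d.B φ) :
    d.D - d'.D ∈ Divisor.principal (K := K) (F := F) := by
  have hn : n ≠ 0 := by
    rintro rfl
    exact hn0 (by simp)
  obtain ⟨hE0, hEord, hE1, hE2⟩ :=
    d.ordinary_of_generic hn hR0 hRord hφ0 hφL hφ1 hφ2 hA hB hA0 hB0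
  obtain ⟨hE'0, hE'ord, hE'1, hE'2⟩ :=
    d'.ordinary_of_generic hn hR0 hRord hφ'0 hφ'L hφ'1 hφ'2 (hAA ▸ hA) (hBB ▸ hB)
      (fun i => by rw [hAA]; exact hA0 i) (fun i => by rw [hBB]; exact hB0 i)
  set E : Divisor K F := divOf N.S₁.hF φ + d.D + R with hE
  set E' : Divisor K F := divOf N.S₁.hF φ' + d'.D + R with hE'
  -- `E - E'` is in the kernel of reduction
  have hred : N.RedTrivial (E - E') := by
    apply inj_redTrivial_of_redDiv N (isOrdDiv_sub N hEord hE'ord)
    · rw [inj_redDiv₁_sub, hE1, hE'1, hAA, sub_self]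
    · rw [inj_redDiv₂_sub, hE2, hE'2, hBB, sub_self]
  have hdeg : Divisor.degree (E - E') = 0 := by
    rw [map_sub, hE, hE', map_add, map_add, map_add, map_add, degree_divOf, degree_divOf,
      d.hdeg, d'.hdeg]
    ring
  -- `n (E - E')` is principal
  have hnE : n • (E - E') = divOf N.S₁.hF (d.f φ) - divOf N.S₁.hF (d'.f φ') := by
    rw [d.divOf_f hφ0, d'.divOf_f hφ'0, hE, hE', ← smul_sub]
    congr 1
    abel
  have hprin : n • (E - E') ∈ Divisor.principal (K := K) (F := F) := by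
    rw [hnE]
    exact (Divisor.principal (K := K) (F := F)).sub_mem
      (inj_divOf_mem_principal N.S₁.hF (d.f_ne_zero hφ0))
      (inj_divOf_mem_principal N.S₁.hF (d'.f_ne_zero hφ'0))
  have hEE := hKey n hn0 hnA (E - E') hdeg hred hprin
  -- conclusion
  have hDD : d.D - d'.D = (E - E') - (divOf N.S₁.hF φ - divOf N.S₁.hF φ') := by
    rw [hE, hE']
    abel
  rw [hDD]
  exact (Divisor.principal (K := K) (F := F)).sub_mem hEE
    ((Divisor.principal (K := K) (F := F)).sub_mem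
      (inj_divOf_mem_principal N.S₁.hF hφ0) (inj_divOf_mem_principal N.S₁.hF hφ'0))

end Fermat.Agent.BadRed.Gluing
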