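import Mathlib
import Fermat.Agent.Lib.BadRed.Nodal.Gluing.Data
import Fermat.Agent.Lib.BadRed.Nodal.Gluing.Push

set_option autoImplicit false

/-!
# Cluster T, WP N3 (gluing): the space `V_x(R)` and the twisted nodal Riemann-Roch space

* `twistRR N ζ R₁ R₂ = {(a, b) ∈ L₁(R₁) × L₂(R₂) : a(s₁ i) = ζ i * b(s₂ i)}`, of dimension
  `≤ ℓ₁(R₁ - nodes) + ℓ₂(R₂)`;
* `d.V R = {(A φ, B φ) : φ ∈ L(R + D) ∩ Ov₁ ∩ c₀ Ov₂}`, a `k`-subspace of dimension
  `≥ ℓ(R + D)` (joint lattice);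
* `d.exists_V_eq`: for a big ordinary effective `R`, `d.V R = twistRR N ζ (r_* R)` for some
  `ζ : ι → μ_n(k)` (a linear space over an infinite field is not a finite union of proper
  subspaces).
-/

noncomputable section

open AlgebraicCurve Fermat.Agent.RR Fermat.Agent.Deuring

namespace Fermat.Agent.BadRed.Gluing

variable {K F k Fk₁ Fk₂ ι : Type*} [Field K] [Field F] [Algebra K F]
  [Field k] [Field Fk₁] [Algebra k Fk₁] [Field Fk₂] [Algebra k Fk₂]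

section Twist

variable (N : NodalSetup K F k Fk₁ Fk₂ ι)

/-- the twisted nodal Riemann-Roch space. -/
def twistRR (ζ : ι → k) (R₁ : Divisor k Fk₁) (R₂ : Divisor k Fk₂) :
    Submodule k (Fk₁ × Fk₂) where
  carrier := {ab | ab.1 ∈ riemannRochSpace R₁ ∧ ab.2 ∈ riemannRochSpace R₂ ∧
    ∀ i, ∃ c : k, ValAt (N.s₁ i) ab.1 (ζ i * c) ∧ ValAt (N.s₂ i) ab.2 c}
  add_mem' := by
    rintro x y ⟨hx1, hx2, hx3⟩ ⟨hy1, hy2, hy3⟩
    refine ⟨Submodule.add_mem _ hx1 hy1, Submodule.add_mem _ hx2 hy2, fun i => ?_⟩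
    obtain ⟨c, hc1, hc2⟩ := hx3 i
    obtain ⟨e, he1, he2⟩ := hy3 i
    refine ⟨c + e, ?_, hc2.add he2⟩
    rw [mul_add]
    exact hc1.add he1
  zero_mem' := ⟨Submodule.zero_mem _, Submodule.zero_mem _,
    fun i => ⟨0, by rw [mul_zero]; exact valAt_zero _, valAt_zero _⟩⟩
  smul_mem' := by
    rintro a x ⟨hx1, hx2, hx3⟩
    refine ⟨Submodule.smul_mem _ a hx1, Submodule.smul_mem _ a hx2, fun i => ?_⟩
    obtain ⟨c, hc1, hc2⟩ := hx3 i
    refine ⟨a * c, ?_, hc2.smul a⟩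
    rw [mul_left_comm]
    exact hc1.smul a

theorem mem_twistRR {ζ : ι → k} {R₁ : Divisor k Fk₁} {R₂ : Divisor k Fk₂} {ab : Fk₁ × Fk₂} :
    ab ∈ twistRR N ζ R₁ R₂ ↔ ab.1 ∈ riemannRochSpace R₁ ∧ ab.2 ∈ riemannRochSpace R₂ ∧
      ∀ i, ∃ c : k, ValAt (N.s₁ i) ab.1 (ζ i * c) ∧ ValAt (N.s₂ i) ab.2 c := Iff.rfl

theorem twistRR_le_prod (ζ : ι → k) (R₁ : Divisor k Fk₁) (R₂ : Divisor k Fk₂) :
    twistRR N ζ R₁ R₂ ≤ (riemannRochSpace R₁).prod (riemannRochSpace R₂) :=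
  fun _ h => ⟨h.1, h.2.1⟩

include N in
theorem finite_prod_rr (R₁ : Divisor k Fk₁) (R₂ : Divisor k Fk₂) :
    Module.Finite k ((riemannRochSpace R₁).prod (riemannRochSpace R₂)) := by
  have hfg : ((riemannRochSpace R₁).prod (riemannRochSpace R₂)).FG :=
    (fg_riemannRochSpace N.S₁.hFk R₁).prod (fg_riemannRochSpace N.S₂.hFk R₂)
  exact Module.Finite.iff_fg.mpr hfg

theorem finite_twistRR (ζ : ι → k) (R₁ : Divisor k Fk₁) (R₂ : Divisor k Fk₂) :
    Module.Finite k (twistRR N ζ R₁ R₂) := by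
  have := finite_prod_rr N R₁ R₂
  exact Submodule.finiteDimensional_of_le (twistRR_le_prod N ζ R₁ R₂)

open Classical in
/-- upper bound for the dimension of the twisted nodal Riemann-Roch space. -/
theorem finrank_twistRR_le [Fintype ι] (ζ : ι → k)
    (R₁ : Divisor k Fk₁) (R₂ : Divisor k Fk₂) (hR₁ : ∀ i, R₁ (N.s₁ i) = 0) :
    Module.finrank k (twistRR N ζ R₁ R₂) ≤
      ell (R₁ - sumPlaces (Finset.univ.image N.s₁)) + ell R₂ := by
  classical
  set T : Finset (Place k Fk₁) := Finset.univ.image N.s₁ with hT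
  have hNR : ∀ Q ∈ T, R₁ Q = 0 := by
    intro Q hQ
    obtain ⟨i, -, rfl⟩ := Finset.mem_image.mp hQ
    exact hR₁ i
  have hmemN : ∀ i, N.s₁ i ∈ T := fun i => Finset.mem_image_of_mem N.s₁ (Finset.mem_univ i)
  have := finite_twistRR N ζ R₁ R₂
  have := finite_riemannRochSpace N.S₁.hFk (R₁ - sumPlaces T)
  have := finite_riemannRochSpace N.S₂.hFk R₂
  let f : ↥(riemannRochSpace (R₁ - sumPlaces T)) →ₗ[k] ↥(twistRR N ζ R₁ R₂) :=
    LinearMap.codRestrict _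
      ((LinearMap.inl k Fk₁ Fk₂) ∘ₗ (riemannRochSpace (R₁ - sumPlaces T)).subtype)
      (fun a => by
        have ha := (mem_riemannRochSpace_sub_sumPlaces_iff hNR _).mp a.2
        refine ⟨ha.1, Submodule.zero_mem _, fun i => ⟨0, ?_, valAt_zero _⟩⟩
        rw [mul_zero]
        exact (valAt_zero_right_iff _ _).mpr (ha.2 _ (hmemN i)))
  let g : ↥(twistRR N ζ R₁ R₂) →ₗ[k] ↥(riemannRochSpace R₂) :=
    LinearMap.codRestrict _ ((LinearMap.snd k Fk₁ Fk₂) ∘ₗ (twistRR N ζ R₁ R₂).subtype)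
      (fun x => x.2.2.1)
  have hle : LinearMap.ker g ≤ LinearMap.range f := by
    intro x hx
    rw [LinearMap.mem_ker] at hx
    have hx2 : (x : Fk₁ × Fk₂).2 = 0 := congrArg Subtype.val hx
    have hmem : (x : Fk₁ × Fk₂).1 ∈ riemannRochSpace (R₁ - sumPlaces T) := by
      rw [mem_riemannRochSpace_sub_sumPlaces_iff hNR]
      refine ⟨x.2.1, fun Q hQ => ?_⟩
      obtain ⟨i, -, rfl⟩ := Finset.mem_image.mp hQ
      obtain ⟨c, hc1, hc2⟩ := x.2.2.2 i
      rw [hx2] at hc2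
      have hc0 : c = 0 := hc2.unique (valAt_zero _)
      rw [hc0, mul_zero] at hc1
      exact (valAt_zero_right_iff _ _).mp hc1
    refine ⟨⟨_, hmem⟩, Subtype.ext (Prod.ext rfl ?_)⟩
    exact hx2.symm
  have hrank := LinearMap.finrank_range_add_finrank_ker g
  have h1 : Module.finrank k (LinearMap.range g) ≤ ell R₂ := by
    rw [ell_def]
    exact Submodule.finrank_le _
  have h2 : Module.finrank k (LinearMap.ker g) ≤ ell (R₁ - sumPlaces T) := by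
    rw [ell_def]
    exact (Submodule.finrank_mono hle).trans (LinearMap.finrank_range_le f)
  omega

/-- a generic element of the twisted nodal Riemann-Roch space. -/
theorem exists_generic [Fintype ι] (ζ : ι → k) (hζ : ∀ i, ζ i ≠ 0)
    (R₁ : Divisor k Fk₁) (R₂ : Divisor k Fk₂) (hR₁0 : 0 ≤ R₁) (hR₂0 : 0 ≤ R₂)
    (hR₁ : ∀ i, R₁ (N.s₁ i) = 0) (hR₂ : ∀ i, R₂ (N.s₂ i) = 0)
    (hdeg₁ : 2 * (genusFF k Fk₁ : ℤ) - 2 < Divisor.degree R₁ - Fintype.card ι)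
    (hdeg₂ : 2 * (genusFF k Fk₂ : ℤ) - 2 < Divisor.degree R₂ - Fintype.card ι) :
    ∃ (a : Fk₁) (b : Fk₂), (a, b) ∈ twistRR N ζ R₁ R₂ ∧ a ≠ 0 ∧ b ≠ 0 ∧
      ∀ i, ValAt (N.s₁ i) a (ζ i) ∧ ValAt (N.s₂ i) b 1 := by
  have h1 : (1 : Fk₁) ∈ riemannRochSpace R₁ :=
    riemannRochSpace_mono hR₁0 (by
      have := algebraMap_mem_riemannRochSpace_zero (K := k) (F := Fk₁) 1
      rwa [map_one] at this)
  have h2 : (1 : Fk₂) ∈ riemannRochSpace R₂ :=
    riemannRochSpace_mono hR₂0 (by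
      have := algebraMap_mem_riemannRochSpace_zero (K := k) (F := Fk₂) 1
      rwa [map_one] at this)
  rcases isEmpty_or_nonempty ι with hι | ⟨⟨i₀⟩⟩
  · exact ⟨1, 1, ⟨h1, h2, fun i => (hι.false i).elim⟩, one_ne_zero, one_ne_zero,
      fun i => (hι.false i).elim⟩
  · obtain ⟨a, haL, ha⟩ := exists_interpolation N.S₁.hFk N.s₁ N.s₁_inj R₁ hR₁ hdeg₁ ζ
    obtain ⟨b, hbL, hb⟩ := exists_interpolation N.S₂.hFk N.s₂ N.s₂_inj R₂ hR₂ hdeg₂ (fun _ => 1)
    refine ⟨a, b, ⟨haL, hbL, fun i => ⟨1, ?_, hb i⟩⟩, ?_, ?_, fun i => ⟨ha i, hb i⟩⟩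
    · rw [mul_one]
      exact ha i
    · rintro rfl
      exact hζ i₀ ((ha i₀).unique (valAt_zero _))
    · rintro rfl
      exact one_ne_zero ((hb i₀).unique (valAt_zero _))

end Twist

section Big

variable (N : NodalSetup K F k Fk₁ Fk₂ ι)

/-- big base divisors: effective, ordinary, of large degree on both components. -/
structure IsBig [Fintype ι] (R : Divisor K F) : Prop where
  nonneg : 0 ≤ R
  ord : N.IsOrdDiv R
  deg₁ : 2 * (genusFF k Fk₁ : ℤ) - 2 < Divisor.degree (redDiv₁ N R) - Fintype.card ι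
  deg₂ : 2 * (genusFF k Fk₂ : ℤ) - 2 < Divisor.degree (redDiv₂ N R) - Fintype.card ι

variable {N}

theorem IsBig.degree_gt [Fintype ι] {R : Divisor K F} (hR : IsBig N R) (hrel : N.GenusRel) :
    2 * (genusFF K F : ℤ) - 2 < Divisor.degree R := by
  have h1 := hR.deg₁
  have h2 := hR.deg₂
  have h3 := degree_of_isOrdDiv N hR.ord
  have h4 : (genusFF K F : ℤ) + 1 = genusFF k Fk₁ + genusFF k Fk₂ + Fintype.card ι := by
    have := hrel
    unfold NodalSetup.GenusRel at this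
    exact_mod_cast this
  have h5 : (0 : ℤ) ≤ Fintype.card ι := Int.natCast_nonneg _
  omega

theorem IsBig.ell_eq [Fintype ι] {R : Divisor K F} (hR : IsBig N R) (hrel : N.GenusRel)
    {D : Divisor K F} (hD : Divisor.degree D = 0) :
    (ell (R + D) : ℤ) = Divisor.degree R + 1 - (genusFF K F : ℤ) := by
  have h := ell_of_degree_gt N.S₁.hF (D := R + D) (by
    rw [map_add, hD, add_zero]
    exact hR.degree_gt hrel)
  rw [h, map_add, hD, add_zero]

theorem IsBig.finrank_twistRR_le [Fintype ι] {R : Divisor K F} (hR : IsBig N R)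
    (hrel : N.GenusRel) (ζ : ι → k) :
    (Module.finrank k (twistRR N ζ (redDiv₁ N R) (redDiv₂ N R)) : ℤ) ≤
      Divisor.degree R + 1 - (genusFF K F : ℤ) := by
  classical
  have h0 := Fermat.Agent.BadRed.Gluing.finrank_twistRR_le N ζ (redDiv₁ N R) (redDiv₂ N R)
    (fun i => redDiv₁_node N R i)
  have hcard : (Finset.univ.image N.s₁).card = Fintype.card ι := by
    rw [Finset.card_image_of_injective _ N.s₁_inj, Finset.card_univ]
  have h1 : (ell (redDiv₁ N R - sumPlaces (Finset.univ.image N.s₁)) : ℤ) =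
      Divisor.degree (redDiv₁ N R) - Fintype.card ι + 1 - (genusFF k Fk₁ : ℤ) := by
    have hdeg : Divisor.degree (redDiv₁ N R - sumPlaces (Finset.univ.image N.s₁)) =
        Divisor.degree (redDiv₁ N R) - Fintype.card ι := by
      rw [map_sub, degree_sumPlaces N.S₁.hFk, hcard]
    rw [ell_of_degree_gt N.S₁.hFk (by rw [hdeg]; exact hR.deg₁), hdeg]
  have h2 : (ell (redDiv₂ N R) : ℤ) =
      Divisor.degree (redDiv₂ N R) + 1 - (genusFF k Fk₂ : ℤ) := by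
    have h5 : (0 : ℤ) ≤ Fintype.card ι := Int.natCast_nonneg _
    exact ell_of_degree_gt N.S₂.hFk (by have := hR.deg₂; omega)
  have h3 := degree_of_isOrdDiv N hR.ord
  have h4 : (genusFF K F : ℤ) + 1 = genusFF k Fk₁ + genusFF k Fk₂ + Fintype.card ι := by
    have := hrel
    unfold NodalSetup.GenusRel at this
    exact_mod_cast this
  have h0' : (Module.finrank k (twistRR N ζ (redDiv₁ N R) (redDiv₂ N R)) : ℤ) ≤
      (ell (redDiv₁ N R - sumPlaces (Finset.univ.image N.s₁)) : ℤ) + (ell (redDiv₂ N R) : ℤ) := by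
    exact_mod_cast h0
  omega

theorem IsBig.add [Fintype ι] {R R' : Divisor K F} (hR : IsBig N R) (hR'0 : 0 ≤ R')
    (hR' : N.IsOrdDiv R') : IsBig N (R + R') := by
  refine ⟨add_nonneg hR.nonneg hR'0, isOrdDiv_add N hR.ord hR', ?_, ?_⟩
  · rw [redDiv₁_add, map_add]
    have h1 := degree_nonneg_of_nonneg N.S₁.hFk (redDiv₁_nonneg N hR'0)
    have := hR.deg₁
    omega
  · rw [redDiv₂_add, map_add]
    have h1 := degree_nonneg_of_nonneg N.S₂.hFk (redDiv₂_nonneg N hR'0)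
    have := hR.deg₂
    omega

variable (N) in
/-- big base divisors exist. -/
theorem exists_isBig [Fintype ι] [Infinite k] : ∃ R : Divisor K F, IsBig N R := by
  classical
  have hinf₁ : Infinite (Place k Fk₁) := infinite_place N.S₁.hFk
  have hinf₂ : Infinite (Place k Fk₂) := infinite_place N.S₂.hFk
  obtain ⟨Q₁, hQ₁⟩ := Infinite.exists_notMem_finset (Finset.univ.image N.s₁)
  obtain ⟨Q₂, hQ₂⟩ := Infinite.exists_notMem_finset (Finset.univ.image N.s₂)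
  have hQ₁' : ∀ i, Q₁ ≠ N.s₁ i := fun i h =>
    hQ₁ (h ▸ Finset.mem_image_of_mem N.s₁ (Finset.mem_univ i))
  have hQ₂' : ∀ i, Q₂ ≠ N.s₂ i := fun i h =>
    hQ₂ (h ▸ Finset.mem_image_of_mem N.s₂ (Finset.mem_univ i))
  obtain ⟨P₁, hP₁⟩ := N.r_surj₁ Q₁ hQ₁'
  obtain ⟨P₂, hP₂⟩ := N.r_surj₂ Q₂ hQ₂'
  set d₁ : ℤ := 2 * (genusFF k Fk₁ : ℤ) + Fintype.card ι with hd₁
  set d₂ : ℤ := 2 * (genusFF k Fk₂ : ℤ) + Fintype.card ι with hd₂
  have hd₁0 : 0 ≤ d₁ := by positivity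
  have hd₂0 : 0 ≤ d₂ := by positivity
  have hs1 : (0 : Divisor K F) ≤ Finsupp.single P₁ d₁ := by
    intro P
    rw [Finsupp.single_apply]
    split_ifs
    · exact hd₁0
    · exact le_rfl
  have hs2 : (0 : Divisor K F) ≤ Finsupp.single P₂ d₂ := by
    intro P
    rw [Finsupp.single_apply]
    split_ifs
    · exact hd₂0
    · exact le_rfl
  have ho1 : N.IsOrdDiv (Finsupp.single P₁ d₁) := by
    intro P hP
    rw [Finsupp.single_apply] at hP
    split_ifs at hP with h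
    · exact ⟨_, h ▸ hP₁⟩
    · exact absurd rfl hP
  have ho2 : N.IsOrdDiv (Finsupp.single P₂ d₂) := by
    intro P hP
    rw [Finsupp.single_apply] at hP
    split_ifs at hP with h
    · exact ⟨_, h ▸ hP₂⟩
    · exact absurd rfl hP
  refine ⟨Finsupp.single P₁ d₁ + Finsupp.single P₂ d₂, add_nonneg hs1 hs2,
    isOrdDiv_add N ho1 ho2, ?_, ?_⟩
  · rw [redDiv₁_add, redDiv₁_single N P₁ d₁ Q₁ hP₁,
      redDiv₁_single_of_ne N P₂ d₂ (by rw [hP₂]; intro Q h; cases h), add_zero,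
      degree_single_one N.S₁.hFk]
    omega
  · rw [redDiv₂_add, redDiv₂_single N P₂ d₂ Q₂ hP₂,
      redDiv₂_single_of_ne N P₁ d₁ (by rw [hP₁]; intro Q h; cases h), zero_add,
      degree_single_one N.S₂.hFk]
    omega

end Big

section V

variable {N : NodalSetup K F k Fk₁ Fk₂ ι} {n : ℕ} (d : GData N n)

/-- the joint lattice of `L(R + D)`. -/
def GData.InLam (R : Divisor K F) (φ : F) : Prop :=
  φ ∈ riemannRochSpace (R + d.D) ∧ φ ∈ N.S₁.Ov ∧ d.c₀⁻¹ • φ ∈ N.S₂.Ov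

theorem GData.inLam_zero (R : Divisor K F) : d.InLam R 0 :=
  ⟨zero_mem _, zero_mem _, by rw [smul_zero]; exact zero_mem _⟩

theorem GData.InLam.add {R : Divisor K F} {φ ψ : F} (hφ : d.InLam R φ) (hψ : d.InLam R ψ) :
    d.InLam R (φ + ψ) :=
  ⟨add_mem hφ.1 hψ.1, add_mem hφ.2.1 hψ.2.1, by rw [smul_add]; exact add_mem hφ.2.2 hψ.2.2⟩

theorem GData.InLam.smul {R : Divisor K F} {φ : F} (hφ : d.InLam R φ) {a : K}
    (ha : a ∈ N.S₁.A) : d.InLam R (a • φ) :=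
  ⟨Submodule.smul_mem _ a hφ.1, N.S₁.smul_mem ha hφ.2.1, by
    rw [smul_comm]
    exact N.S₂.smul_mem (N.A_eq ▸ ha) hφ.2.2⟩

theorem GData.InLam.mono {R R' : Divisor K F} (hle : R ≤ R') {φ : F} (hφ : d.InLam R φ) :
    d.InLam R' φ :=
  ⟨riemannRochSpace_mono (add_le_add_left hle _) hφ.1, hφ.2.1, hφ.2.2⟩

/-- the space `V_x(R)` of joint reductions. -/
def GData.V (R : Divisor K F) : Submodule k (Fk₁ × Fk₂) where
  carrier := {p | ∃ φ, d.InLam R φ ∧ p = (d.A φ, d.B φ)}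
  zero_mem' := ⟨0, d.inLam_zero R, by rw [d.A_zero, d.B_zero]; rfl⟩
  add_mem' := by
    rintro _ _ ⟨φ, hφ, rfl⟩ ⟨ψ, hψ, rfl⟩
    refine ⟨φ + ψ, hφ.add d hψ, ?_⟩
    rw [d.A_add hφ.2.1 hψ.2.1, d.B_add hφ.2.2 hψ.2.2]
    rfl
  smul_mem' := by
    rintro c _ ⟨φ, hφ, rfl⟩
    obtain ⟨⟨a, ha⟩, rfl⟩ := N.S₁.res_surj c
    refine ⟨a • φ, hφ.smul d ha, ?_⟩
    rw [d.A_smul ha hφ.2.1, d.B_smul ha hφ.2.2]
    rfl

theorem GData.mem_V_iff {R : Divisor K F} {p : Fk₁ × Fk₂} :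
    p ∈ d.V R ↔ ∃ φ, d.InLam R φ ∧ p = (d.A φ, d.B φ) := Iff.rfl

theorem GData.V_mono {R R' : Divisor K F} (hle : R ≤ R') : d.V R ≤ d.V R' := by
  rintro _ ⟨φ, hφ, rfl⟩
  exact ⟨φ, hφ.mono d hle, rfl⟩

theorem GData.V_le_prod (hn : n ≠ 0) {R : Divisor K F} (hR0 : 0 ≤ R) (hRord : N.IsOrdDiv R) :
    d.V R ≤ (riemannRochSpace (redDiv₁ N R)).prod (riemannRochSpace (redDiv₂ N R)) := by
  rintro _ ⟨φ, hφ, rfl⟩
  exact ⟨d.A_mem hn hR0 hRord hφ.1 hφ.2.1 hφ.2.2, d.B_mem hn hR0 hRord hφ.1 hφ.2.1 hφ.2.2⟩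

theorem GData.finite_V (hn : n ≠ 0) {R : Divisor K F} (hR0 : 0 ≤ R) (hRord : N.IsOrdDiv R) :
    Module.Finite k (d.V R) := by
  have := finite_prod_rr N (redDiv₁ N R) (redDiv₂ N R)
  exact Submodule.finiteDimensional_of_le (d.V_le_prod hn hR0 hRord)

/-- elements of the joint lattice are admissible. -/
theorem GData.InLam.adm {R : Divisor K F} (hRord : N.IsOrdDiv R) {φ : F} (hφ : d.InLam R φ)
    (hφ0 : φ ≠ 0) : d.Adm φ := by
  refine ⟨hφ0, hφ.2.1, hφ.2.2, fun P hP => ?_⟩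
  have h := ((mem_riemannRochSpace_iff.mp hφ.1) P).resolve_left hφ0
  rw [Finsupp.add_apply] at h
  have hR : R P = 0 := by
    by_contra hne
    obtain ⟨Q, hQ⟩ := hRord P hne
    rw [hP] at hQ
    cases hQ
  rw [hR] at h
  linarith

/-- **lower bound** for the dimension of `V_x(R)` (joint lattice). -/
theorem GData.le_finrank_V (hn : n ≠ 0) {R : Divisor K F} (hR0 : 0 ≤ R)
    (hRord : N.IsOrdDiv R) : ell (R + d.D) ≤ Module.finrank k (d.V R) := by
  classical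
  have hfinW : FiniteDimensional K (riemannRochSpace (R + d.D)) :=
    finite_riemannRochSpace N.S₁.hF _
  obtain ⟨r, w, hr, hwW, hw1, hw2, hli⟩ :=
    exists_joint_basis N.S₁ N.S₂ N.A_eq N.res_eq N.lat₁ N.lat₂
      (riemannRochSpace (R + d.D)) d.hc₀0
  have := d.finite_V hn hR0 hRord
  -- multiply by `(h₁, h₂)`
  let T : (Fk₁ × Fk₂) →ₗ[k] (Fk₁ × Fk₂) :=
    LinearMap.prodMap (LinearMap.mulRight k d.h₁) (LinearMap.mulRight k d.h₂)
  have hT : LinearMap.ker T = ⊥ := by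
    rw [LinearMap.ker_eq_bot']
    rintro ⟨x, y⟩ hxy
    have h1 : x * d.h₁ = 0 := congrArg Prod.fst hxy
    have h2 : y * d.h₂ = 0 := congrArg Prod.snd hxy
    rw [mul_eq_zero] at h1 h2
    exact Prod.ext (h1.resolve_right d.hh₁) (h2.resolve_right d.hh₂)
  have hli2 : LinearIndependent k (fun i => ((d.A (w i), d.B (w i)) : Fk₁ × Fk₂)) :=
    hli.map' T hT
  have hmemV : ∀ i, ((d.A (w i), d.B (w i)) : Fk₁ × Fk₂) ∈ d.V R :=
    fun i => ⟨w i, ⟨hwW i, hw1 i, hw2 i⟩, rfl⟩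
  have hli3 : LinearIndependent k
      (fun i => (⟨(d.A (w i), d.B (w i)), hmemV i⟩ : d.V R)) := by
    apply LinearIndependent.of_comp (d.V R).subtype
    exact hli2
  have hcard := hli3.fintype_card_le_finrank
  rw [Fintype.card_fin] at hcard
  rw [ell_def, ← hr]
  exact hcard

/-- every element of `V_x(R)` lies in one of the twisted nodal Riemann-Roch spaces. -/
theorem GData.exists_mem_twistRR (hn : n ≠ 0) {R : Divisor K F} (hR0 : 0 ≤ R)
    (hRord : N.IsOrdDiv R) {p : Fk₁ × Fk₂} (hp : p ∈ d.V R) :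
    ∃ ζ : ι → k, (∀ i, ζ i ^ n = 1) ∧ p ∈ twistRR N ζ (redDiv₁ N R) (redDiv₂ N R) := by
  obtain ⟨φ, hφ, rfl⟩ := hp
  rcases eq_or_ne φ 0 with rfl | hφ0
  · refine ⟨fun _ => 1, fun _ => one_pow n, ?_⟩
    rw [d.A_zero, d.B_zero]
    exact zero_mem _
  · have hadm := hφ.adm d hRord hφ0
    choose ζ hζ hval using fun i => d.node_of_adm hn hadm i
    exact ⟨ζ, hζ, d.A_mem hn hR0 hRord hφ.1 hφ.2.1 hφ.2.2,
      d.B_mem hn hR0 hRord hφ.1 hφ.2.1 hφ.2.2, hval⟩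

/-- **`V_x(R)` is a twisted nodal Riemann-Roch space.** -/
theorem GData.exists_V_eq [Fintype ι] [Infinite k] (hn : n ≠ 0) (hrel : N.GenusRel)
    {R : Divisor K F} (hR : IsBig N R) :
    ∃ ζ : ι → k, (∀ i, ζ i ^ n = 1) ∧
      d.V R = twistRR N ζ (redDiv₁ N R) (redDiv₂ N R) := by
  classical
  have hfinV := d.finite_V hn hR.nonneg hR.ord
  set Z : Finset (ι → k) := Fintype.piFinset (fun _ => Polynomial.nthRootsFinset n (1 : k))
    with hZ
  have hmemZ : ∀ ζ : ι → k, ζ ∈ Z ↔ ∀ i, ζ i ^ n = 1 := by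
    intro ζ
    rw [hZ, Fintype.mem_piFinset]
    refine forall_congr' fun i => ?_
    rw [Polynomial.mem_nthRootsFinset (Nat.pos_of_ne_zero hn)]
  -- one of the spaces contains `V`
  have hex : ∃ ζ ∈ Z, d.V R ≤ twistRR N ζ (redDiv₁ N R) (redDiv₂ N R) := by
    by_contra hcon
    push Not at hcon
    let s : Finset (Subspace k (d.V R)) :=
      Z.image (fun ζ => (twistRR N ζ (redDiv₁ N R) (redDiv₂ N R)).comap (d.V R).subtype)
    have hs : (⊤ : Subspace k (d.V R)) ∉ s := by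
      intro h
      obtain ⟨ζ, hζ, hζtop⟩ := Finset.mem_image.mp h
      apply hcon ζ hζ
      intro p hp
      have hmem : (⟨p, hp⟩ : d.V R) ∈ (⊤ : Subspace k (d.V R)) := Submodule.mem_top
      rw [← hζtop] at hmem
      exact hmem
    apply Subspace.biUnion_ne_univ_of_top_notMem hs
    ext x
    simp only [Set.mem_iUnion, Set.mem_univ, iff_true]
    obtain ⟨ζ, hζ, hx⟩ := d.exists_mem_twistRR hn hR.nonneg hR.ord x.2
    exact ⟨_, Finset.mem_image_of_mem _ ((hmemZ ζ).mpr hζ), hx⟩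
  obtain ⟨ζ, hζ, hle⟩ := hex
  refine ⟨ζ, (hmemZ ζ).mp hζ, ?_⟩
  have := finite_twistRR N ζ (redDiv₁ N R) (redDiv₂ N R)
  apply Submodule.eq_of_le_of_finrank_le hle
  have h1 := d.le_finrank_V hn hR.nonneg hR.ord
  have h2 := hR.finrank_twistRR_le hrel ζ
  have h3 := hR.ell_eq hrel d.hdeg
  have h1' : (ell (R + d.D) : ℤ) ≤ (Module.finrank k (d.V R) : ℤ) := by exact_mod_cast h1
  have : (Module.finrank k (twistRR N ζ (redDiv₁ N R) (redDiv₂ N R)) : ℤ) ≤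
      (Module.finrank k (d.V R) : ℤ) := by omega
  exact_mod_cast this

end V

end Fermat.Agent.BadRed.Gluing
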