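import Mathlib
import Fermat.Agent.Lib.BadRed.Nodal.Gluing.Space

set_option autoImplicit false

/-!
# Cluster T, WP N3 (gluing): ordinary representatives

For gluing data `d` of a `W₀`-divisor `D` and a big ordinary effective base divisor `R` there is a
gluing invariant `ζ : ι → μ_n(k)` with `V_x(R) = V_ζ(r_* R)`; every generic pair `(a, b)` of the
twisted nodal Riemann-Roch space lifts to `φ ∈ L(R + D)` with `E = div φ + D + R` effective and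
ORDINARY, of reduction `(div a + r_* R, div b + r_* R)`.
-/

noncomputable section

open AlgebraicCurve Fermat.Agent.RR Fermat.Agent.Deuring

namespace Fermat.Agent.BadRed.Gluing

variable {K F k Fk₁ Fk₂ ι : Type*} [Field K] [Field F] [Algebra K F]
  [Field k] [Field Fk₁] [Algebra k Fk₁] [Field Fk₂] [Algebra k Fk₂]
  {N : NodalSetup K F k Fk₁ Fk₂ ι} {n : ℕ} (d : GData N n)

/-- `ζ` is a gluing invariant of `d` with respect to `R`. -/
def GData.IsGlueAt (R : Divisor K F) (ζ : ι → k) : Prop :=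
  (∀ i, ζ i ^ n = 1) ∧ d.V R = twistRR N ζ (redDiv₁ N R) (redDiv₂ N R)

theorem GData.exists_isGlueAt [Fintype ι] [Infinite k] (hn : n ≠ 0) (hrel : N.GenusRel)
    {R : Divisor K F} (hR : IsBig N R) : ∃ ζ : ι → k, d.IsGlueAt R ζ :=
  d.exists_V_eq hn hrel hR

theorem ne_zero_of_pow_eq_one {z : k} {n : ℕ} (hn : n ≠ 0) (h : z ^ n = 1) : z ≠ 0 := by
  rintro rfl
  rw [zero_pow hn] at h
  exact zero_ne_one h

/-- generic pairs: nonzero, with prescribed nonzero values at the nodes. -/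
def IsGenericPair (N : NodalSetup K F k Fk₁ Fk₂ ι) (ζ : ι → k) (a : Fk₁) (b : Fk₂) : Prop :=
  a ≠ 0 ∧ b ≠ 0 ∧ ∀ i, ValAt (N.s₁ i) a (ζ i) ∧ ValAt (N.s₂ i) b 1

theorem exists_isGenericPair [Fintype ι] (hn : n ≠ 0) {ζ : ι → k} (hζ : ∀ i, ζ i ^ n = 1)
    {R : Divisor K F} (hR : IsBig N R) :
    ∃ (a : Fk₁) (b : Fk₂), (a, b) ∈ twistRR N ζ (redDiv₁ N R) (redDiv₂ N R) ∧
      IsGenericPair N ζ a b := by
  obtain ⟨a, b, hab, ha, hb, hval⟩ := exists_generic N ζ (fun i => ne_zero_of_pow_eq_one hn (hζ i))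
    (redDiv₁ N R) (redDiv₂ N R) (redDiv₁_nonneg N hR.nonneg) (redDiv₂_nonneg N hR.nonneg)
    (fun i => redDiv₁_node N R i) (fun i => redDiv₂_node N R i) hR.deg₁ hR.deg₂
  exact ⟨a, b, hab, ha, hb, hval⟩

/-- **lifting of generic pairs to ordinary divisors.** -/
theorem GData.exists_lift_generic [Fintype ι] (hn : n ≠ 0) {R : Divisor K F} (hR : IsBig N R)
    {ζ : ι → k} (hζ : d.IsGlueAt R ζ) {a : Fk₁} {b : Fk₂}
    (hab : (a, b) ∈ twistRR N ζ (redDiv₁ N R) (redDiv₂ N R)) (hgen : IsGenericPair N ζ a b) :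
    ∃ φ : F, φ ≠ 0 ∧ d.InLam R φ ∧ d.A φ = a ∧ d.B φ = b ∧
      0 ≤ divOf N.S₁.hF φ + d.D + R ∧ N.IsOrdDiv (divOf N.S₁.hF φ + d.D + R) ∧
      redDiv₁ N (divOf N.S₁.hF φ + d.D + R) = divOf N.S₁.hFk a + redDiv₁ N R ∧
      redDiv₂ N (divOf N.S₁.hF φ + d.D + R) = divOf N.S₂.hFk b + redDiv₂ N R := by
  obtain ⟨ha, hb, hval⟩ := hgen
  have hmem : (a, b) ∈ d.V R := by rw [hζ.2]; exact hab
  obtain ⟨φ, hφ, hφab⟩ := hmem
  have hA : d.A φ = a := (congrArg Prod.fst hφab).symm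
  have hB : d.B φ = b := (congrArg Prod.snd hφab).symm
  have hφ0 : φ ≠ 0 := by
    rintro rfl
    rw [d.A_zero] at hA
    exact ha hA.symm
  have hA0 : ∀ i, (N.s₁ i).ord (d.A φ) = 0 := fun i => by
    rw [hA]
    exact ord_eq_zero_of_valAt (hval i).1 (ne_zero_of_pow_eq_one hn (hζ.1 i))
  have hB0 : ∀ i, (N.s₂ i).ord (d.B φ) = 0 := fun i => by
    rw [hB]
    exact ord_eq_zero_of_valAt (hval i).2 one_ne_zero
  obtain ⟨h1, h2, h3, h4⟩ := d.ordinary_of_generic hn hR.nonneg hR.ord hφ0 hφ.1 hφ.2.1 hφ.2.2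
    (by rw [hA]; exact ha) (by rw [hB]; exact hb) hA0 hB0
  rw [hA] at h3
  rw [hB] at h4
  exact ⟨φ, hφ0, hφ, hA, hB, h1, h2, h3, h4⟩

/-- **(M1) ordinary representative**: every `W₀`-class is represented by `E - R` with `E`, `R`
effective and ordinary. -/
theorem GData.exists_ordinary [Fintype ι] [Infinite k] (hn : n ≠ 0) (hrel : N.GenusRel)
    {R : Divisor K F} (hR : IsBig N R) :
    ∃ φ : F, φ ≠ 0 ∧ d.InLam R φ ∧ d.A φ ≠ 0 ∧ d.B φ ≠ 0 ∧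
      0 ≤ divOf N.S₁.hF φ + d.D + R ∧ N.IsOrdDiv (divOf N.S₁.hF φ + d.D + R) := by
  obtain ⟨ζ, hζ⟩ := d.exists_isGlueAt hn hrel hR
  obtain ⟨a, b, hab, hgen⟩ := exists_isGenericPair hn hζ.1 hR
  obtain ⟨φ, hφ0, hφ, hA, hB, h1, h2, -, -⟩ := d.exists_lift_generic hn hR hζ hab hgen
  exact ⟨φ, hφ0, hφ, by rw [hA]; exact hgen.1, by rw [hB]; exact hgen.2.1, h1, h2⟩

/-- the hypothesis `hord` of `abstractToricKey_of_ordinary`. -/
theorem exists_ordinary_rep [Fintype ι] [Infinite k] (N : NodalSetup K F k Fk₁ Fk₂ ι) :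
    N.GenusRel → ∀ n : ℕ, (n : K) ≠ 0 → ((n : K))⁻¹ ∈ N.S₁.A → ∀ d : GData N n,
      ∃ (R : Divisor K F) (φ : F), N.IsOrdDiv R ∧ φ ≠ 0 ∧
        N.IsOrdDiv (divOf N.S₁.hF φ + d.D + R) := by
  intro hrel n hn0 _ d
  have hn : n ≠ 0 := by
    rintro rfl
    exact hn0 Nat.cast_zero
  obtain ⟨R, hR⟩ := exists_isBig N
  obtain ⟨φ, hφ0, -, -, -, -, h⟩ := d.exists_ordinary hn hrel hR
  exact ⟨R, φ, hR.ord, hφ0, h⟩

end Fermat.Agent.BadRed.Gluing
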