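import Mathlib
import Fermat.Agent.Lib.BadRed.Nodal.Gluing.Ordinary

set_option autoImplicit false

/-!
# Cluster T, WP N3 (gluing): the gluing invariant does not depend on the base divisor

* `GData.IsGlueAt.unique_of_le` : `R ≤ R'` big, then the gluing invariants at `R` and `R'` agree;
* `GData.IsGlueAt.mem_of_inLam` : the gluing relation holds for every `φ ∈ L(R' + D) ∩ Ov₁ ∩ c₀ Ov₂`,
  `R' ≥ R` big;
* `GData.IsGlueAt.of_witness` : the gluing invariant can be computed from one function with nonzero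
  values at the nodes.
-/

noncomputable section

open AlgebraicCurve Fermat.Agent.RR Fermat.Agent.Deuring

namespace Fermat.Agent.BadRed.Gluing

variable {K F k Fk₁ Fk₂ ι : Type*} [Field K] [Field F] [Algebra K F]
  [Field k] [Field Fk₁] [Algebra k Fk₁] [Field Fk₂] [Algebra k Fk₂]
  {N : NodalSetup K F k Fk₁ Fk₂ ι} {n : ℕ} (d : GData N n)

/-- two twisted relations for the same pair with nonzero values: the twists agree. -/
theorem twist_unique {i : ι} {a : Fk₁} {b : Fk₂} {z z' c c' : k}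
    (ha : ValAt (N.s₁ i) a (z * c)) (hb : ValAt (N.s₂ i) b c)
    (ha' : ValAt (N.s₁ i) a (z' * c')) (hb' : ValAt (N.s₂ i) b c') (hc : c ≠ 0) : z = z' := by
  have e1 : c = c' := hb.unique hb'
  have e2 : z * c = z' * c' := ha.unique ha'
  rw [← e1] at e2
  exact mul_right_cancel₀ hc e2

variable {d}

/-- the gluing invariant is determined by one witness with nonzero values at the nodes. -/
theorem GData.IsGlueAt.eq_of_witness {R : Divisor K F} {ζ ζ' : ι → k} (hζ : d.IsGlueAt R ζ)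
    {φ : F} (hφ : d.InLam R φ)
    (hw : ∀ i, ∃ c : k, c ≠ 0 ∧ ValAt (N.s₁ i) (d.A φ) (ζ' i * c) ∧ ValAt (N.s₂ i) (d.B φ) c) :
    ζ = ζ' := by
  funext i
  have hmem : (d.A φ, d.B φ) ∈ twistRR N ζ (redDiv₁ N R) (redDiv₂ N R) := by
    rw [← hζ.2]
    exact ⟨φ, hφ, rfl⟩
  obtain ⟨c, hc1, hc2⟩ := hmem.2.2 i
  obtain ⟨c', hc', hc1', hc2'⟩ := hw i
  have e1 : c = c' := hc2.unique hc2'
  rw [e1] at hc1
  exact twist_unique hc1 hc2' hc1' hc2' hc'

/-- the gluing invariants at `R ≤ R'` agree. -/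
theorem GData.IsGlueAt.unique_of_le [Fintype ι] (hn : n ≠ 0) {R R' : Divisor K F}
    (hR : IsBig N R) (hle : R ≤ R') {ζ ζ' : ι → k} (hζ : d.IsGlueAt R ζ)
    (hζ' : d.IsGlueAt R' ζ') : ζ' = ζ := by
  obtain ⟨a, b, hab, hgen⟩ := exists_isGenericPair hn hζ.1 hR
  obtain ⟨φ, -, hφ, hA, hB, -⟩ := d.exists_lift_generic hn hR hζ hab hgen
  refine hζ'.eq_of_witness (hφ.mono d hle) fun i => ⟨1, one_ne_zero, ?_, ?_⟩
  · rw [hA, mul_one]
    exact (hgen.2.2 i).1
  · rw [hB]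
    exact (hgen.2.2 i).2

/-- the gluing relation for all functions of the joint lattice of a bigger base divisor. -/
theorem GData.IsGlueAt.mem_of_inLam [Fintype ι] [Infinite k] (hn : n ≠ 0) (hrel : N.GenusRel)
    {R R' : Divisor K F} (hR : IsBig N R) (hR' : IsBig N R') (hle : R ≤ R') {ζ : ι → k}
    (hζ : d.IsGlueAt R ζ) {φ : F} (hφ : d.InLam R' φ) (i : ι) :
    ∃ c : k, ValAt (N.s₁ i) (d.A φ) (ζ i * c) ∧ ValAt (N.s₂ i) (d.B φ) c := by
  obtain ⟨ζ', hζ'⟩ := d.exists_isGlueAt hn hrel hR'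
  have e := hζ.unique_of_le hn hR hle hζ'
  have hmem : (d.A φ, d.B φ) ∈ twistRR N ζ' (redDiv₁ N R') (redDiv₂ N R') := by
    rw [← hζ'.2]
    exact ⟨φ, hφ, rfl⟩
  rw [e] at hmem
  exact hmem.2.2 i

/-- **computation of the gluing invariant from a witness in a bigger joint lattice.** -/
theorem GData.isGlueAt_of_witness [Fintype ι] [Infinite k] (hn : n ≠ 0) (hrel : N.GenusRel)
    {R R' : Divisor K F} (hR : IsBig N R) (hR' : IsBig N R') (hle : R ≤ R') {ζ' : ι → k}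
    {φ : F} (hφ : d.InLam R' φ)
    (hw : ∀ i, ∃ c : k, c ≠ 0 ∧ ValAt (N.s₁ i) (d.A φ) (ζ' i * c) ∧ ValAt (N.s₂ i) (d.B φ) c) :
    d.IsGlueAt R ζ' := by
  obtain ⟨ζ, hζ⟩ := d.exists_isGlueAt hn hrel hR
  have e : ζ = ζ' := by
    funext i
    obtain ⟨c, hc1, hc2⟩ := hζ.mem_of_inLam hn hrel hR hR' hle hφ i
    obtain ⟨c', hc', hc1', hc2'⟩ := hw i
    have e1 : c = c' := hc2.unique hc2'
    rw [e1] at hc1
    exact twist_unique hc1 hc2' hc1' hc2' hc'
  rw [← e]
  exact hζ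

end Fermat.Agent.BadRed.Gluing
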