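import Mathlib
import Fermat.Agent.Lib.BadRed.Nodal.Gluing.Glue
import Fermat.Prelude.Def_AlgebraicCurve_BaseChangeGalois

set_option autoImplicit false

/-!
# Cluster T, WP N3 (gluing): semilinear automorphisms and powers of gluing data

`t` a semilinear automorphism of `F / K` which preserves both valuation rings, induces ring
endomorphisms `τ₁`, `τ₂` of the residue fields which are `c ↦ c ^ Q` on constants and fix the
nodes, and preserves the set of ordinary places.  Then the gluing invariant of `t • d` is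
`ζ ^ Q`, as is the gluing invariant of `d ^ Q`.
-/

noncomputable section

open AlgebraicCurve Fermat.Agent.RR Fermat.Agent.Deuring

namespace Fermat.Agent.BadRed.Gluing

variable {K F k Fk₁ Fk₂ ι : Type*} [Field K] [Field F] [Algebra K F]
  [Field k] [Field Fk₁] [Algebra k Fk₁] [Field Fk₂] [Algebra k Fk₂]

/-- semilinear automorphisms acting on the special fibre through `τ₁`, `τ₂`, raising the
constants to the `Q`-th power and fixing the nodes. -/
structure IsFrobLike (N : NodalSetup K F k Fk₁ Fk₂ ι) (t : SemilinearAut K F) (Q : ℕ)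
    (τ₁ : Fk₁ →+* Fk₁) (τ₂ : Fk₂ →+* Fk₂) : Prop where
  mem₁ : ∀ f : F, f ∈ N.S₁.Ov → t • f ∈ N.S₁.Ov
  red₁ : ∀ f : F, f ∈ N.S₁.Ov → N.S₁.red (t • f) = τ₁ (N.S₁.red f)
  mem₂ : ∀ f : F, f ∈ N.S₂.Ov → t • f ∈ N.S₂.Ov
  red₂ : ∀ f : F, f ∈ N.S₂.Ov → N.S₂.red (t • f) = τ₂ (N.S₂.red f)
  const₁ : ∀ c : k, τ₁ (algebraMap k Fk₁ c) = algebraMap k Fk₁ (c ^ Q)
  const₂ : ∀ c : k, τ₂ (algebraMap k Fk₂ c) = algebraMap k Fk₂ (c ^ Q)
  node₁ : ∀ (i : ι) (x : Fk₁), 0 < (N.s₁ i).ord x → 0 < (N.s₁ i).ord (τ₁ x)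
  node₂ : ∀ (i : ι) (x : Fk₂), 0 < (N.s₂ i).ord x → 0 < (N.s₂ i).ord (τ₂ x)
  ord_smul : ∀ P : Place K F, N.IsOrd P → N.IsOrd (t • P)

section Transport

variable (t : SemilinearAut K F)

theorem sl_smul_div (x y : F) : t • (x / y) = (t • x) / (t • y) := by
  rw [SemilinearAut.smul_def, SemilinearAut.smul_def, SemilinearAut.smul_def, map_div₀]

theorem sl_smul_mul (x y : F) : t • (x * y) = (t • x) * (t • y) := by
  rw [SemilinearAut.smul_def, SemilinearAut.smul_def, SemilinearAut.smul_def, map_mul]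

theorem sl_smul_pow (x : F) (m : ℕ) : t • (x ^ m) = (t • x) ^ m := by
  rw [SemilinearAut.smul_def, SemilinearAut.smul_def, map_pow]

theorem sl_smul_ne_zero {x : F} (hx : x ≠ 0) : t • x ≠ 0 := by
  rw [SemilinearAut.smul_def]
  exact (map_ne_zero _).mpr hx

theorem sl_smul_zero : t • (0 : F) = 0 := by
  rw [SemilinearAut.smul_def, map_zero]

theorem sl_smul_smul (c : K) (x : F) :
    t • (c • x) = (SemilinearAut.baseAut t c) • (t • x) := by
  rw [Algebra.smul_def, Algebra.smul_def, sl_smul_mul, SemilinearAut.smul_algebraMap]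

theorem sl_ord_smul (P : Place K F) (f : F) : P.ord (t • f) = (t⁻¹ • P).ord f := by
  have h := SemilinearAut.ord_smul t (t⁻¹ • P) f
  rwa [smul_inv_smul] at h

theorem sl_divOf_smul (h : IsRRField K F) (f : F) : divOf h (t • f) = t • divOf h f := by
  ext P
  rw [divOf_apply, SemilinearAut.divisor_smul_apply, divOf_apply, sl_ord_smul]

theorem sl_smul_nonneg {D : Divisor K F} (hD : 0 ≤ D) : 0 ≤ t • D := by
  intro P
  rw [SemilinearAut.divisor_smul_apply]
  exact hD _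

theorem sl_smul_mem_rr {D : Divisor K F} {f : F} (hf : f ∈ riemannRochSpace D) :
    t • f ∈ riemannRochSpace (t • D) := by
  rw [mem_riemannRochSpace_iff] at hf ⊢
  intro P
  rcases hf (t⁻¹ • P) with h | h
  · left
    rw [h, sl_smul_zero]
  · right
    rw [SemilinearAut.divisor_smul_apply, sl_ord_smul]
    exact h

theorem sl_smul_mem_principal {D : Divisor K F}
    (hD : D ∈ Divisor.principal (K := K) (F := F)) :
    t • D ∈ Divisor.principal (K := K) (F := F) :=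
  SemilinearAut.smul_mem_principal t hD

end Transport

section Data

variable {N : NodalSetup K F k Fk₁ Fk₂ ι} {n : ℕ}
  {t : SemilinearAut K F} {Q : ℕ} {τ₁ : Fk₁ →+* Fk₁} {τ₂ : Fk₂ →+* Fk₂}

theorem IsFrobLike.isOrdDiv_smul (ht : IsFrobLike N t Q τ₁ τ₂) {D : Divisor K F}
    (hD : N.IsOrdDiv D) : N.IsOrdDiv (t • D) := by
  intro P hP
  rw [SemilinearAut.divisor_smul_apply] at hP
  have h := ht.ord_smul _ (hD _ hP)
  rwa [smul_inv_smul] at h

/-- transport of values. -/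
theorem IsFrobLike.valAt₁ (ht : IsFrobLike N t Q τ₁ τ₂) {i : ι} {a : Fk₁} {c : k}
    (h : ValAt (N.s₁ i) a c) : ValAt (N.s₁ i) (τ₁ a) (c ^ Q) := by
  rcases h with h | h
  · left
    rw [h, ht.const₁]
  · right
    have := ht.node₁ i _ h
    rwa [map_sub, ht.const₁] at this

theorem IsFrobLike.valAt₂ (ht : IsFrobLike N t Q τ₁ τ₂) {i : ι} {b : Fk₂} {c : k}
    (h : ValAt (N.s₂ i) b c) : ValAt (N.s₂ i) (τ₂ b) (c ^ Q) := by
  rcases h with h | h
  · left
    rw [h, ht.const₂]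
  · right
    have := ht.node₂ i _ h
    rwa [map_sub, ht.const₂] at this

/-- the transport of gluing data by a semilinear automorphism. -/
def GData.smulData (ht : IsFrobLike N t Q τ₁ τ₂) (d : GData N n) : GData N n where
  D := t • d.D
  g := t • d.g
  c₁ := SemilinearAut.baseAut t d.c₁
  c₂ := SemilinearAut.baseAut t d.c₂
  c₀ := SemilinearAut.baseAut t d.c₀
  h₁ := τ₁ d.h₁
  h₂ := τ₂ d.h₂
  hdeg := by rw [SemilinearAut.degree_smul]; exact d.hdeg
  hg := sl_smul_ne_zero t d.hg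
  hdiv := by
    intro P
    rw [sl_ord_smul, SemilinearAut.divisor_smul_apply, d.hdiv]
  hc₁ := (map_ne_zero _).mpr d.hc₁
  hc₂ := (map_ne_zero _).mpr d.hc₂
  hc₀0 := (map_ne_zero _).mpr d.hc₀0
  hh₁ := (map_ne_zero _).mpr d.hh₁
  hh₂ := (map_ne_zero _).mpr d.hh₂
  hred₁ := by
    have h := ht.red₁ d.u₁ d.u₁_mem
    unfold GData.u₁ at h
    rw [← SemilinearAut.smul_algebraMap, ← sl_smul_div, h, ← map_pow]
    exact congrArg τ₁ d.hred₁
  hred₂ := by
    have h := ht.red₂ d.u₂ d.u₂_mem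
    unfold GData.u₂ at h
    rw [← SemilinearAut.smul_algebraMap, ← sl_smul_div, h, ← map_pow]
    exact congrArg τ₂ d.hred₂
  hc₀ := by
    rw [← map_pow, d.hc₀, map_div₀]

variable (ht : IsFrobLike N t Q τ₁ τ₂) (d : GData N n)

@[simp] theorem GData.smulData_D : (d.smulData ht).D = t • d.D := rfl

theorem GData.smulData_A {φ : F} (hφ : φ ∈ N.S₁.Ov) :
    (d.smulData ht).A (t • φ) = τ₁ (d.A φ) := by
  unfold GData.A
  rw [ht.red₁ φ hφ, map_mul]
  rfl

theorem GData.smulData_c₀_smul (φ : F) :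
    (d.smulData ht).c₀⁻¹ • (t • φ) = t • (d.c₀⁻¹ • φ) := by
  rw [sl_smul_smul, map_inv₀]
  rfl

theorem GData.smulData_B {φ : F} (hφ : d.c₀⁻¹ • φ ∈ N.S₂.Ov) :
    (d.smulData ht).B (t • φ) = τ₂ (d.B φ) := by
  unfold GData.B
  rw [d.smulData_c₀_smul ht, ht.red₂ _ hφ, map_mul]
  rfl

theorem GData.smulData_inLam {R : Divisor K F} {φ : F} (hφ : d.InLam R φ) :
    (d.smulData ht).InLam (t • R) (t • φ) := by
  refine ⟨?_, ht.mem₁ _ hφ.2.1, ?_⟩
  · have := sl_smul_mem_rr t hφ.1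
    rwa [smul_add] at this
  · rw [d.smulData_c₀_smul ht]
    exact ht.mem₂ _ hφ.2.2

/-- powers of gluing data. -/
def GData.powData (d : GData N n) (Q : ℕ) : GData N n where
  D := Q • d.D
  g := d.g ^ Q
  c₁ := d.c₁ ^ Q
  c₂ := d.c₂ ^ Q
  c₀ := d.c₀ ^ Q
  h₁ := d.h₁ ^ Q
  h₂ := d.h₂ ^ Q
  hdeg := by rw [map_nsmul, d.hdeg, smul_zero]
  hg := pow_ne_zero Q d.hg
  hdiv := by
    intro P
    rw [ord_pow_nat, d.hdiv, Finsupp.smul_apply]
    simp only [nsmul_eq_mul]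
    ring
  hc₁ := pow_ne_zero Q d.hc₁
  hc₂ := pow_ne_zero Q d.hc₂
  hc₀0 := pow_ne_zero Q d.hc₀0
  hh₁ := pow_ne_zero Q d.hh₁
  hh₂ := pow_ne_zero Q d.hh₂
  hred₁ := by
    have h := N.S₁.red_pow d.u₁_mem Q
    unfold GData.u₁ at h
    rw [map_pow, ← div_pow, h, ← pow_mul, mul_comm, pow_mul]
    exact congrArg (· ^ Q) d.hred₁
  hred₂ := by
    have h := N.S₂.red_pow d.u₂_mem Q
    unfold GData.u₂ at h
    rw [map_pow, ← div_pow, h, ← pow_mul, mul_comm, pow_mul]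
    exact congrArg (· ^ Q) d.hred₂
  hc₀ := by
    rw [← pow_mul, mul_comm, pow_mul, d.hc₀, div_pow]

@[simp] theorem GData.powData_D (Q : ℕ) : (d.powData Q).D = Q • d.D := rfl

theorem GData.powData_A (Q : ℕ) {φ : F} (hφ : φ ∈ N.S₁.Ov) :
    (d.powData Q).A (φ ^ Q) = d.A φ ^ Q := by
  unfold GData.A
  rw [N.S₁.red_pow hφ, mul_pow]
  rfl

theorem GData.powData_c₀_smul (Q : ℕ) (φ : F) :
    (d.powData Q).c₀⁻¹ • (φ ^ Q) = (d.c₀⁻¹ • φ) ^ Q := by
  rw [Algebra.smul_def, Algebra.smul_def, mul_pow, ← map_pow, inv_pow]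
  rfl

theorem GData.powData_B (Q : ℕ) {φ : F} (hφ : d.c₀⁻¹ • φ ∈ N.S₂.Ov) :
    (d.powData Q).B (φ ^ Q) = d.B φ ^ Q := by
  unfold GData.B
  rw [d.powData_c₀_smul, N.S₂.red_pow hφ, mul_pow]
  rfl

theorem GData.powData_inLam (Q : ℕ) {R : Divisor K F} {φ : F} (hφ : d.InLam R φ) :
    (d.powData Q).InLam (Q • R) (φ ^ Q) := by
  refine ⟨?_, pow_mem hφ.2.1 Q, ?_⟩
  · rw [mem_riemannRochSpace_iff]
    intro P
    rcases (mem_riemannRochSpace_iff.mp hφ.1) P with h | h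
    · rcases Nat.eq_zero_or_pos Q with hQ | hQ
      · right
        subst hQ
        simp
      · left
        rw [h, zero_pow (Nat.pos_iff_ne_zero.mp hQ)]
    · right
      rw [ord_pow_nat, GData.powData_D, ← smul_add, Finsupp.smul_apply]
      simp only [nsmul_eq_mul]
      have hQ : (0 : ℤ) ≤ Q := Int.natCast_nonneg Q
      nlinarith
  · rw [d.powData_c₀_smul]
    exact pow_mem hφ.2.2 Q

end Data

end Fermat.Agent.BadRed.Gluing
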