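import Mathlib
import Fermat.Agent.Lib.BadRed.Nodal.Gluing.Inertia
import Fermat.Agent.Lib.BadRed.Nodal.Gluing.Ordinary
import Fermat.Agent.Lib.BadRed.Nodal.Gluing.Main
import Fermat.Agent.Lib.BadRed.Nodal.KeyJacobi
import Fermat.Agent.Lib.BadRed.Nodal.NSBuildLift

set_option autoImplicit false

/-!
# Cluster T: wiring of N2 (nodal key lemma) and N3 (gluing)

For a nodal reduction package `N` with the genus relation and the lifting property (LIFT)
(`N.HasLift D₀ R₁ R₂`, exported by the nodal Deuring construction N4):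

* `keyConclusion_of_lift`, `keyConcl_of_lift` : the conclusion of the nodal KEY LEMMA;
* `abstractToricKey_of_lift` : `AbstractToricKeyStatement N` (inertia acts trivially on the toric
  part), the statement consumed by `Bridge/Assembly`;
* `frobLike_of_lift` : the Frobenius-like version `u ^ n * g ^ Q = c * (t • g)` (for S35).
-/

noncomputable section

open AlgebraicCurve Fermat.Agent.RR Fermat.Agent.Deuring

namespace Fermat.Agent.BadRed.Gluing

variable {K F k Fk₁ Fk₂ ι : Type*} [Field K] [Field F] [Algebra K F]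
  [Field k] [Field Fk₁] [Algebra k Fk₁] [Field Fk₂] [Algebra k Fk₂]

/-- the key lemma from a `NodalNS`. -/
theorem keyConclusion_of_nodalNS (N : NodalSetup K F k Fk₁ Fk₂ ι)
    (h : Nonempty (NodalNS N (genusFF K F))) : KeyConclusion N :=
  NJ.nodalKeyOfNS N h

/-- the key lemma from a `NodalNS`, in the form used by `Gluing/Main.lean`. -/
theorem keyConcl_of_nodalNS (N : NodalSetup K F k Fk₁ Fk₂ ι)
    (h : Nonempty (NodalNS N (genusFF K F))) : KeyConcl N :=
  NJ.nodalKeyOfNS N h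

/-- `AbstractToricKeyStatement` from a `NodalNS` (given the genus relation). -/
theorem abstractToricKey_of_nodalNS [Fintype ι] [Infinite k] (N : NodalSetup K F k Fk₁ Fk₂ ι)
    (h : N.GenusRel → Nonempty (NodalNS N (genusFF K F))) : AbstractToricKeyStatement N :=
  fun hrel =>
    abstractToricKey_of_ordinary N (keyConclusion_of_nodalNS N (h hrel)) (exists_ordinary_rep N)
      hrel

section Lift

variable [IsAlgClosed k] [Fintype ι] [Nonempty ι] (N : NodalSetup K F k Fk₁ Fk₂ ι)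
  (D₀ : Divisor K F) (R₁ : Divisor k Fk₁) (R₂ : Divisor k Fk₂)

/-- the conclusion of the nodal key lemma from (LIFT) and the genus relation. -/
theorem keyConclusion_of_lift (hg : N.GenusRel)
    (hR₁ : 0 < Divisor.degree R₁) (hR₂ : 0 < Divisor.degree R₂)
    (hn₁ : ∀ i, R₁ (N.s₁ i) = 0) (hn₂ : ∀ i, R₂ (N.s₂ i) = 0)
    (hlift : N.HasLift D₀ R₁ R₂) : KeyConclusion N :=
  keyConclusion_of_nodalNS N (N.nonempty_nodalNS_of_lift hg D₀ R₁ R₂ hR₁ hR₂ hn₁ hn₂ hlift)

/-- the same, in the form used by `Gluing/Main.lean`. -/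
theorem keyConcl_of_lift (hg : N.GenusRel)
    (hR₁ : 0 < Divisor.degree R₁) (hR₂ : 0 < Divisor.degree R₂)
    (hn₁ : ∀ i, R₁ (N.s₁ i) = 0) (hn₂ : ∀ i, R₂ (N.s₂ i) = 0)
    (hlift : N.HasLift D₀ R₁ R₂) : KeyConcl N :=
  keyConcl_of_nodalNS N (N.nonempty_nodalNS_of_lift hg D₀ R₁ R₂ hR₁ hR₂ hn₁ hn₂ hlift)

/-- **N2 + N3**: inertial automorphisms act trivially on the toric part, from (LIFT). -/
theorem abstractToricKey_of_lift
    (hR₁ : 0 < Divisor.degree R₁) (hR₂ : 0 < Divisor.degree R₂)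
    (hn₁ : ∀ i, R₁ (N.s₁ i) = 0) (hn₂ : ∀ i, R₂ (N.s₂ i) = 0)
    (hlift : N.HasLift D₀ R₁ R₂) : AbstractToricKeyStatement N := by
  haveI : Infinite k := IsAlgClosed.instInfinite
  exact abstractToricKey_of_nodalNS N
    (fun hg => N.nonempty_nodalNS_of_lift hg D₀ R₁ R₂ hR₁ hR₂ hn₁ hn₂ hlift)

/-- **N2 + N3, Frobenius-like version**: `u ^ n * g ^ Q = c * (t • g)` for the Kummer generator
`g` of a `W₀`-divisor, from (LIFT). -/
theorem frobLike_of_lift (hg : N.GenusRel)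
    (hR₁ : 0 < Divisor.degree R₁) (hR₂ : 0 < Divisor.degree R₂)
    (hn₁ : ∀ i, R₁ (N.s₁ i) = 0) (hn₂ : ∀ i, R₂ (N.s₂ i) = 0)
    (hlift : N.HasLift D₀ R₁ R₂) {n : ℕ} (hn0 : (n : K) ≠ 0) (hnA : ((n : K))⁻¹ ∈ N.S₁.A)
    {t : SemilinearAut K F} {Q : ℕ} {τ₁ : Fk₁ →+* Fk₁} {τ₂ : Fk₂ →+* Fk₂}
    (ht : IsFrobLike N t Q τ₁ τ₂) (d : GData N n) :
    ∃ (u : F) (c : K), c ≠ 0 ∧ u ^ n * d.g ^ Q = algebraMap K F c * (t • d.g) := by
  haveI : Infinite k := IsAlgClosed.instInfinite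
  exact exists_pow_mul_eq_smul (keyConcl_of_lift N D₀ R₁ R₂ hg hR₁ hR₂ hn₁ hn₂ hlift) hg hn0 hnA
    ht d

end Lift

end Fermat.Agent.BadRed.Gluing
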