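import Mathlib
import Fermat.Agent.Lib.BadRed.Nodal.Gluing.Inertia
import Fermat.Agent.Lib.BadRed.Nodal.Gluing.Main

set_option autoImplicit false

/-!
# Cluster T, WP N3 (gluing): final statements

* `abstractToricKey` : `KeyConclusion N → AbstractToricKeyStatement N` (inertia acts trivially on
  the toric part), for an infinite residue field;
* `isFrobLike_of_isInertial` : inertial automorphisms are Frobenius-like with `Q = 1`;
* `exists_gData_of_isW0Div` : gluing data of a `W₀`-divisor (`K` algebraically closed);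
* `smul_eq_nsmul_of_mem_W0` : a Frobenius-like semilinear automorphism acts as `Q` on `W₀[n]`
  (in `Pic⁰`).
-/

noncomputable section

open AlgebraicCurve Fermat.Agent.RR Fermat.Agent.Deuring

namespace Fermat.Agent.BadRed.Gluing

variable {K F k Fk₁ Fk₂ ι : Type*} [Field K] [Field F] [Algebra K F]
  [Field k] [Field Fk₁] [Algebra k Fk₁] [Field Fk₂] [Algebra k Fk₂]

theorem keyConcl_iff (N : NodalSetup K F k Fk₁ Fk₂ ι) : KeyConcl N ↔ KeyConclusion N := Iff.rfl

/-- **(E1'), abstract form**: inertial automorphisms act trivially on the toric part. -/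
theorem abstractToricKey [Fintype ι] [Infinite k] (N : NodalSetup K F k Fk₁ Fk₂ ι)
    (hKey : KeyConclusion N) : AbstractToricKeyStatement N :=
  abstractToricKey_of_ordinary N hKey (exists_ordinary_rep N)

variable {N : NodalSetup K F k Fk₁ Fk₂ ι} {n : ℕ}

/-- inertial automorphisms are Frobenius-like with `Q = 1`. -/
theorem isFrobLike_of_isInertial {t : SemilinearAut K F} (ht : N.IsInertial t) :
    IsFrobLike N t 1 (RingHom.id Fk₁) (RingHom.id Fk₂) where
  mem₁ := ht.mem₁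
  red₁ := ht.red₁
  mem₂ := ht.mem₂
  red₂ := ht.red₂
  const₁ c := by rw [pow_one]; rfl
  const₂ c := by rw [pow_one]; rfl
  node₁ _ _ h := h
  node₂ _ _ h := h
  ord_smul P hP := by
    obtain ⟨Q, hQ⟩ := hP
    exact ⟨Q, by rw [ht.r_smul, hQ]⟩

/-- gluing data of a `W₀`-divisor. -/
theorem exists_gData_of_isW0Div [IsAlgClosed K] (hn : n ≠ 0) {D : Divisor K F}
    (hdeg : Divisor.degree D = 0) (h : N.IsW0Div n D) :
    ∃ d : GData N n, d.D = D ∧ d.g = h.choose := by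
  obtain ⟨hg, hdiv, ⟨c₁, hc₁, h₁, hh₁, hred₁⟩, ⟨c₂, hc₂, h₂, hh₂, hred₂⟩⟩ := h.choose_spec
  obtain ⟨c₀, hc₀⟩ := IsAlgClosed.exists_pow_nat_eq (c₁ / c₂) (Nat.pos_of_ne_zero hn)
  have hc₀0 : c₀ ≠ 0 := by
    rintro rfl
    rw [zero_pow hn] at hc₀
    exact div_ne_zero hc₁ hc₂ hc₀.symm
  exact ⟨⟨D, h.choose, c₁, c₂, c₀, h₁, h₂, hdeg, hg, hdiv, hc₁, hc₂, hc₀0, hh₁, hh₂, hred₁, hred₂,
    hc₀⟩, rfl, rfl⟩

/-- **(P2)**: a Frobenius-like semilinear automorphism acts as multiplication by `Q` on the toric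
part `W₀[n]` of `Pic⁰`. -/
theorem smul_eq_nsmul_of_mem_W0 [Fintype ι] [Infinite k] [IsAlgClosed K] (hKey : KeyConcl N)
    (hrel : N.GenusRel) (hn0 : (n : K) ≠ 0) (hnA : ((n : K))⁻¹ ∈ N.S₁.A)
    {t : SemilinearAut K F} {Q : ℕ} {τ₁ : Fk₁ →+* Fk₁} {τ₂ : Fk₂ →+* Fk₂}
    (ht : IsFrobLike N t Q τ₁ τ₂) {x : Pic0 K F} (hx : x ∈ N.W0 n) : t • x = Q • x := by
  have hn : n ≠ 0 := by
    rintro rfl
    exact hn0 Nat.cast_zero
  obtain ⟨D, rfl, hD⟩ := hx
  obtain ⟨d, hdD, -⟩ := exists_gData_of_isW0Div hn D.2 hD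
  have hprin := smul_sub_nsmul_mem_principal hKey hrel hn0 hnA ht d
  rw [hdD] at hprin
  rw [SemilinearAut.pic0_smul_mk]
  have e : Q • Pic0.mk D = Pic0.mk (Q • D) := rfl
  rw [e]
  unfold Pic0.mk
  rw [QuotientAddGroup.eq, AddSubgroup.mem_addSubgroupOf]
  have e2 : ((-(SemilinearAut.degZeroSMulHom t D) + Q • D : Divisor.degZero (K := K) (F := F)) :
      Divisor K F) = -(t • (D : Divisor K F) - Q • (D : Divisor K F)) := by
    simp only [AddSubgroup.coe_add, NegMemClass.coe_neg, SemilinearAut.coe_degZeroSMulHom,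
      AddSubgroup.coe_nsmul]
    abel
  rw [e2]
  exact neg_mem hprin

/-- inertial automorphisms act trivially on `W₀[n]`. -/
theorem smul_eq_of_mem_W0 [Fintype ι] [Infinite k] [IsAlgClosed K] (hKey : KeyConcl N)
    (hrel : N.GenusRel) (hn0 : (n : K) ≠ 0) (hnA : ((n : K))⁻¹ ∈ N.S₁.A)
    {t : SemilinearAut K F} (ht : N.IsInertial t) {x : Pic0 K F} (hx : x ∈ N.W0 n) :
    t • x = x := by
  have h := smul_eq_nsmul_of_mem_W0 hKey hrel hn0 hnA (isFrobLike_of_isInertial ht) hx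
  rwa [one_smul] at h

end Fermat.Agent.BadRed.Gluing
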